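import Fermat.Agent.S55.G.Rec.HP.Spec
import Fermat.Agent.S55.G.H953.H1J
import Fermat.Agent.S55.KL.ScalarsH795

/-!
# S55 / G / REC / HP : leaf HP-FINp (subtask 483)                             (helper795)

    theorem Fermat.Agent.S55.G.Rec.HP.H795.hasseFinP_of (p : ℕ) [Fact p.Prime] (hp2 : p ≠ 2) :
        G.PClassUpperSpec → G.ClassShortExactSpec → G.ShapiroJSpec → HasseFinPSpec p

Route (blueprint `coord/S55-REC-HP.md` §A of helper473):
1. `hasFixedRoot_of_isPGroup` : a `p`-group of automorphisms fixes `ζ_p`;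
2. `exists_S_unram`, `exists_S_units` : for `S` large the action is unramified outside `S`
   (NO faithfulness needed) and finitely many given elements of `Lˣ` are `S`-units
   (primes dividing absolute norms; no discriminants);
3. `H¹(Γ, C_S) = 0` + the long exact sequence: `H²(Γ, Lˣ) → H²(Γ, J_S × Div^S)` is injective;
4. the image of `[c]` is `inl_* [unitsDiag ∘ c]`, which vanishes by Shapiro injectivity since its
   localisations are the localisations of `[c]`.
-/


set_option autoImplicit false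
set_option linter.style.haveILetI false
set_option linter.unusedSectionVars false

open scoped NumberField
open IsDedekindDomain CategoryTheory groupCohomology

noncomputable section

namespace Fermat.Agent.S55.G.Rec.HP.H795

open Fermat.Agent.S55 Fermat.Agent.S55.G


/-- A `p`-group of automorphisms fixes the `p`-th roots of unity. -/
theorem hasFixedRoot_of_isPGroup (p : ℕ) [hp : Fact p.Prime] (Γ L : Type) [Group Γ] [Field L]
    [CharZero L] [MulSemiringAction Γ L] (hΓ : IsPGroup p Γ) {ζ : L}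
    (hζ : IsPrimitiveRoot ζ p) : HasFixedRootOfUnity p Γ L := by
  refine ⟨ζ, hζ, fun g => ?_⟩
  haveI : NeZero p := ⟨hp.out.ne_zero⟩
  set φ : Γ →* (ZMod p)ˣ := (hζ.autToPow ℚ).comp (fieldAut Γ L) with hφ
  have h1 : φ g = 1 := by
    obtain ⟨k, hk⟩ := hΓ g
    have ho1 : orderOf (φ g) ∣ p ^ k :=
      orderOf_dvd_of_pow_eq_one (by rw [← map_pow, hk, map_one])
    have ho2 : orderOf (φ g) ∣ p - 1 := by
      have h := orderOf_dvd_card (x := φ g)
      rwa [ZMod.card_units_eq_totient, Nat.totient_prime hp.out] at h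
    have hcop : Nat.Coprime (p ^ k) (p - 1) := by
      apply Nat.Coprime.pow_left
      rw [hp.out.coprime_iff_not_dvd]
      have h2p : 2 ≤ p := hp.out.two_le
      exact Nat.not_dvd_of_pos_of_lt (by omega) (by omega)
    have : orderOf (φ g) = 1 := Nat.eq_one_of_dvd_coprimes hcop ho1 ho2
    exact orderOf_eq_one_iff.1 this
  have h2 := hζ.autToPow_spec ℚ (fieldAut Γ L g)
  have h3 : hζ.autToPow ℚ (fieldAut Γ L g) = 1 := h1
  rw [h3] at h2
  have h4 : ((1 : (ZMod p)ˣ) : ZMod p).val = 1 := by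
    rw [Units.val_one]
    haveI : Fact (1 < p) := ⟨hp.out.one_lt⟩
    exact ZMod.val_one p
  rw [h4, pow_one] at h2
  rw [← fieldAut_apply]
  exact h2.symm


/-! ## Choice of the finite set `S` -/

section ChooseS

variable (L : Type) [Field L] [NumberField L]

/-- The rational primes dividing the absolute norm of `a`. -/
def primesOf (a : 𝓞 L) : Finset Nat.Primes :=
  ((Ideal.absNorm (Ideal.span {a})).primeFactors.subtype Nat.Prime : Finset {q : ℕ // q.Prime})

variable {L}

lemma mem_primesOf {a : 𝓞 L} {q : Nat.Primes} :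
    q ∈ primesOf L a ↔ (q : ℕ) ∈ (Ideal.absNorm (Ideal.span {a})).primeFactors :=
  Finset.mem_subtype

/-- A natural number `n ≠ 0` lying in a prime ideal has a prime factor lying in it. -/
lemma exists_prime_factor_mem (w : HeightOneSpectrum (𝓞 L)) :
    ∀ n : ℕ, n ≠ 0 → ((n : ℕ) : 𝓞 L) ∈ w.asIdeal →
      ∃ q : ℕ, q.Prime ∧ q ∣ n ∧ ((q : ℕ) : 𝓞 L) ∈ w.asIdeal := by
  intro n
  induction n using Nat.strong_induction_on with
  | _ n ih =>
    intro hn hmem
    have hn1 : n ≠ 1 := by
      rintro rfl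
      apply w.isPrime.ne_top
      rw [Ideal.eq_top_iff_one]
      simpa using hmem
    have hq := Nat.minFac_prime hn1
    obtain ⟨m, hm⟩ := Nat.minFac_dvd n
    have hm0 : m ≠ 0 := by
      rintro rfl
      apply hn
      rw [hm, mul_zero]
    have hmem' : ((n.minFac : ℕ) : 𝓞 L) * ((m : ℕ) : 𝓞 L) ∈ w.asIdeal := by
      have : ((n : ℕ) : 𝓞 L) = ((n.minFac : ℕ) : 𝓞 L) * ((m : ℕ) : 𝓞 L) := by
        conv_lhs => rw [hm]
        push_cast
        rfl
      rwa [this] at hmem
    rcases w.isPrime.mem_or_mem hmem' with h | h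
    · exact ⟨n.minFac, hq, Nat.minFac_dvd n, h⟩
    · have hlt : m < n := by
        have h2 : 2 ≤ n.minFac := hq.two_le
        have hmpos : 0 < m := Nat.pos_of_ne_zero hm0
        calc m = 1 * m := (one_mul m).symm
          _ < n.minFac * m := Nat.mul_lt_mul_of_pos_right (by omega) hmpos
          _ = n := hm.symm
      obtain ⟨q, hq', hqm, hqw⟩ := ih m hlt hm0 h
      exact ⟨q, hq', hqm.trans (Dvd.intro_left _ hm.symm), hqw⟩

/-- If `a ≠ 0` lies in the prime `w`, then `w` lies above a prime of `primesOf a`. -/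
lemma isAbove_of_mem {a : 𝓞 L} (ha : a ≠ 0) (w : HeightOneSpectrum (𝓞 L))
    (haw : a ∈ w.asIdeal) {S : Finset Nat.Primes} (hS : primesOf L a ⊆ S) : IsAbove S L w := by
  have hn0 : Ideal.absNorm (Ideal.span {a}) ≠ 0 := by
    rw [Ne, Ideal.absNorm_eq_zero_iff, Ideal.span_singleton_eq_bot]
    exact ha
  have hmem : ((Ideal.absNorm (Ideal.span {a}) : ℕ) : 𝓞 L) ∈ w.asIdeal := by
    have h1 := Ideal.absNorm_mem (Ideal.span {a})
    have h2 : Ideal.span {a} ≤ w.asIdeal := (Ideal.span_singleton_le_iff_mem _).2 haw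
    exact h2 h1
  obtain ⟨q, hq, hqn, hqw⟩ := exists_prime_factor_mem w _ hn0 hmem
  refine ⟨⟨q, hq⟩, hS (mem_primesOf.2 ?_), hqw⟩
  exact Nat.mem_primeFactors.2 ⟨hq, hqn, hn0⟩

lemma exists_num_den (x : L) (hx : x ≠ 0) :
    ∃ a b : 𝓞 L, a ≠ 0 ∧ b ≠ 0 ∧ x = (a : L) / (b : L) := by
  obtain ⟨a, b, hb, rfl⟩ := IsFractionRing.div_surjective (A := 𝓞 L) x
  have hb0 : b ≠ 0 := nonZeroDivisors.ne_zero hb
  refine ⟨a, b, ?_, hb0, rfl⟩
  rintro rfl
  apply hx
  simp

lemma intValuation_eq_one_of_not_mem (w : HeightOneSpectrum (𝓞 L)) {a : 𝓞 L}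
    (ha : a ∉ w.asIdeal) : w.intValuation a = 1 := by
  apply le_antisymm (w.intValuation_le_one a)
  by_contra h
  rw [not_le] at h
  exact ha ((w.intValuation_lt_one_iff_mem a).1 h)

lemma valuation_div_eq_one (w : HeightOneSpectrum (𝓞 L)) {a b : 𝓞 L}
    (ha : a ∉ w.asIdeal) (hb : b ∉ w.asIdeal) :
    w.valuation L ((a : L) / (b : L)) = 1 := by
  have h1 : w.valuation L (a : L) = 1 := by
    have := w.valuation_of_algebraMap (K := L) a
    rw [intValuation_eq_one_of_not_mem w ha] at this
    exact this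
  have h2 : w.valuation L (b : L) = 1 := by
    have := w.valuation_of_algebraMap (K := L) b
    rw [intValuation_eq_one_of_not_mem w hb] at this
    exact this
  rw [map_div₀, h1, h2, div_one]

/-- Every element of `Lˣ` is an `S`-unit for `S` large. -/
theorem exists_S_units (x : Additive Lˣ) :
    ∃ S₀ : Finset Nat.Primes, ∀ S : Finset Nat.Primes, S₀ ⊆ S → ordHom S L x = 0 := by
  classical
  obtain ⟨a, b, ha, hb, hab⟩ := exists_num_den ((x.toMul : Lˣ) : L) (Units.ne_zero _)
  refine ⟨primesOf L a ∪ primesOf L b, fun S hS => ?_⟩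
  ext w
  rw [ordHom_apply, Finsupp.zero_apply, ordAt_eq_zero_iff, hab]
  apply valuation_div_eq_one
  · intro h
    exact w.2 (isAbove_of_mem ha w.1 h (Finset.union_subset_left hS))
  · intro h
    exact w.2 (isAbove_of_mem hb w.1 h (Finset.union_subset_right hS))

/-- The action is unramified outside `S` for `S` large. -/
theorem exists_S_unram (Γ : Type) [Group Γ] [Finite Γ] [MulSemiringAction Γ L] :
    ∃ S₀ : Finset Nat.Primes, ∀ S : Finset Nat.Primes, S₀ ⊆ S → IsUnramOut S Γ L := by
  classical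
  haveI : Fintype Γ := Fintype.ofFinite Γ
  let el : Γ → 𝓞 L := fun g =>
    if h : ∃ a : 𝓞 L, g • a ≠ a then g • h.choose - h.choose else 1
  have hel : ∀ g, el g ≠ 0 := by
    intro g
    by_cases h : ∃ a : 𝓞 L, g • a ≠ a
    · simp only [el, dif_pos h]
      exact sub_ne_zero.2 h.choose_spec
    · simp only [el, dif_neg h]
      exact one_ne_zero
  refine ⟨Finset.univ.biUnion fun g => primesOf L (el g), fun S hS w hw g hg x => ?_⟩
  by_cases h : ∃ a : 𝓞 L, g • a ≠ a
  · exfalso
    apply hw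
    have h1 : el g ∈ w.asIdeal := by
      simp only [el, dif_pos h]
      exact hg _
    refine isAbove_of_mem (hel g) w h1 ?_
    exact (Finset.subset_biUnion_of_mem (fun g => primesOf L (el g)) (Finset.mem_univ g)).trans hS
  · simp only [ne_eq, not_exists, not_not] at h
    obtain ⟨a, b, hb, rfl⟩ := IsFractionRing.div_surjective (A := 𝓞 L) x
    have h1 : g • (algebraMap (𝓞 L) L a / algebraMap (𝓞 L) L b) =
        algebraMap (𝓞 L) L (g • a) / algebraMap (𝓞 L) L (g • b) := by
      rw [smul_div₀']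
      rfl
    rw [h1, h a, h b]

end ChooseS


/-! ## The cohomological argument -/

section Main

open KL.H795

/-- Vanishing of `H¹` can be tested after restriction to the top subgroup. -/
lemma isZero_H1_of_top {k Γ : Type} [CommRing k] [Group Γ] (A : Rep.{0} k Γ)
    (h : Limits.IsZero (groupCohomology (T.resSub A (⊤ : Subgroup Γ)) 1)) :
    Limits.IsZero (groupCohomology A 1) := by
  refine Limits.IsZero.of_iso h (groupCohomology.mapIso (A := T.resSub A (⊤ : Subgroup Γ)) (B := A)
    (Subgroup.topEquiv : (⊤ : Subgroup Γ) ≃* Γ).symm (LinearEquiv.refl k A.V)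
    (fun g => by
      show (LinearEquiv.refl k A.V : A.V →ₗ[k] A.V) ∘ₗ A.ρ g =
        (T.resSub A ⊤).ρ (Subgroup.topEquiv.symm g) ∘ₗ (LinearEquiv.refl k A.V : A.V →ₗ[k] A.V)
      ext x; rfl) 1)

/-- **HP-FINp.**  The Hasse principle at finite level for `p`-groups, from the class module
upper bound (`H¹(Γ, C_S) = 0`), the exactness of `0 → Lˣ → J_S × Div^S → C_S → 0` and Shapiro's
lemma for `J_S`. -/
theorem hasseFinP_of (p : ℕ) [hp : Fact p.Prime] (hp2 : p ≠ 2) (hUp : PClassUpperSpec)
    (hSES : ClassShortExactSpec) (hSh : ShapiroJSpec) : HasseFinPSpec p := by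
  intro Γ L _ _ _ _ _ _ hΓ hζ' x hloc
  obtain ⟨ζ, hζ⟩ := hζ'
  classical
  haveI : Fintype Γ := Fintype.ofFinite Γ
  induction x using groupCohomology_induction_on with
  | h c =>
    -- the finite set `S`
    obtain ⟨S₁, hS₁⟩ := exists_S_unram (L := L) Γ
    have hex : ∀ v : Fin 2 → Γ, ∃ S₀ : Finset Nat.Primes, ∀ S : Finset Nat.Primes, S₀ ⊆ S →
        ordHom S L ((iCocycles (LRep Γ L) 2).hom c v) = 0 := fun v => exists_S_units _
    choose S₂ hS₂ using hex
    set S : Finset Nat.Primes := ({⟨p, hp.out⟩} ∪ S₁) ∪ Finset.univ.biUnion S₂ with hSdef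
    have hpS : (⟨p, hp.out⟩ : Nat.Primes) ∈ S := by
      rw [hSdef]
      exact Finset.mem_union_left _ (Finset.mem_union_left _ (Finset.mem_singleton_self _))
    have hunr : IsUnramOut S Γ L := hS₁ S (by
      rw [hSdef]
      exact Finset.subset_union_right.trans Finset.subset_union_left)
    have hord : ∀ v : Fin 2 → Γ, ordHom S L ((iCocycles (LRep Γ L) 2).hom c v) = 0 := fun v =>
      hS₂ v S (by
        rw [hSdef]
        exact (Finset.subset_biUnion_of_mem S₂ (Finset.mem_univ v)).trans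
          Finset.subset_union_right)
    have hroot : HasFixedRootOfUnity p Γ L := hasFixedRoot_of_isPGroup p Γ L hΓ hζ
    -- `H¹(Γ, C_S) = 0`
    have hH1 : Limits.IsZero (groupCohomology (CRep S Γ L) 1) :=
      isZero_H1_of_top _ (hUp p hp2 S Γ L hpS hΓ hunr hroot ⊤).1
    -- `H²(Γ, Lˣ) → H²(Γ, J_S × Div^S)` is injective
    have hX := hSES S Γ L ⟨_, hpS⟩
    have hmono : Mono (groupCohomology.map (A := LRep Γ L) (B := JDRep S Γ L)
        (MonoidHom.id Γ) (diagRepHom S Γ L) 2) := by
      have hex := mapShortComplex₁_exact hX (i := 1) (j := 2) rfl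
      have h0 : (mapShortComplex₁ hX (i := 1) (j := 2) rfl).f = 0 := hH1.eq_of_src _ _
      exact hex.mono_g h0
    have hinj := (ModuleCat.mono_iff_injective _).1 hmono
    apply hinj
    rw [map_zero]
    -- the class of `unitsDiag ∘ c` in `H²(Γ, J_S)` vanishes by Shapiro
    have hdu : (inhomogeneousCochains.d (JRep Γ S L) 2).hom
        (fun v => unitsDiag S L ((iCocycles (LRep Γ L) 2).hom c v)) = 0 := by
      have h0 := d_comp_eq (LRep Γ L) (JRep Γ S L) (unitsDiag S L)
        (unitsDiag_equivariant Γ S L) 2 ((iCocycles (LRep Γ L) 2).hom c)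
      rw [d_iCocycles] at h0
      refine h0.trans ?_
      funext v
      exact map_zero _
    have hu0 : (π (JRep Γ S L) 2).hom (cocyclesMk _ hdu) = 0 := by
      haveI : Finite (SPlace S L) := (PL0H713.locField S L).1
      obtain ⟨R, hR⟩ := H953.exists_orbitReps S Γ L
      apply (hSh S Γ L R hR 2).1
      funext r
      show (locMapJ S Γ r.1 2).hom _ = (locMapJ S Γ r.1 2).hom 0
      rw [map_zero]
      have h1 := hloc S r.1
      unfold locMapL at h1
      unfold locMapJ
      rw [map_π_eq_zero_iff] at h1 ⊢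
      refine (congrArg (IsCobdry (LocRep S Γ r.1) 2) ?_).mpr h1
      funext x
      have h3 := congrFun (iCocycles_mk _ hdu) (fun i => (decomp S Γ r.1).subtype (x i))
      exact congrArg (jToLocRepHom S Γ r.1).hom h3
    have h2 : (groupCohomology.map (A := JRep Γ S L) (B := JDRep S Γ L)
        (MonoidHom.id Γ) (jInlRepHom S Γ L) 2).hom
        ((π (JRep Γ S L) 2).hom (cocyclesMk _ hdu)) = 0 := by
      rw [hu0, map_zero]
    rw [map_π_eq_zero_iff] at h2 ⊢
    refine (congrArg (IsCobdry (JDRep S Γ L) 2) ?_).mpr h2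
    funext x
    have h3 := congrFun (iCocycles_mk _ hdu) (fun i => (MonoidHom.id Γ) (x i))
    refine Eq.trans ?_ (congrArg (jInlRepHom S Γ L).hom h3).symm
    exact Prod.ext rfl (hord _)

end Main

end Fermat.Agent.S55.G.Rec.HP.H795

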