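import Mathlib

/-!
# S55 / REC / HP : injectivity of inflation in degree 2, cochain form

Abstract lemma (no finiteness, no topology): let `ρ : Γ → D` be a surjective homomorphism,
`A` a `Γ`-module, `B` a `D`-module and `φ : B → A` an injective `ρ`-equivariant additive map
whose image contains the `ker ρ`-invariants of `A`.  Let `f` be a 2-cocycle of `D` in `B` whose
inflation `φ ∘ f ∘ (ρ × ρ)` is the coboundary of a 1-cochain `b : Γ → A`.  If the 1-cocycle
`n ↦ b n - φ (f (1, 1))` of `ker ρ` is a coboundary (Hilbert 90), then `f` is a coboundary.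
-/

set_option autoImplicit false

open CategoryTheory groupCohomology

namespace Fermat.Agent.S55.G.Rec.HP

variable {k Γ D : Type} [CommRing k] [Group Γ] [Group D]

/-- **Inflation is injective on `H²`** (cochain form, Hilbert 90 as hypothesis `ha`). -/
theorem mem_coboundaries₂_of_infl (A : Rep.{0} k Γ) (B : Rep.{0} k D) (ρ : Γ →* D)
    (hρ : Function.Surjective ρ) (φ : B.V →+ A.V) (hφinj : Function.Injective φ)
    (hφeq : ∀ (τ : Γ) (y : B.V), φ (B.ρ (ρ τ) y) = A.ρ τ (φ y))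
    (hφrange : ∀ a : A.V, (∀ n : Γ, ρ n = 1 → A.ρ n a = a) → ∃ y, φ y = a)
    (f : D × D → B.V) (hf : f ∈ cocycles₂ B) (b : Γ → A.V)
    (hb : ∀ τ τ' : Γ, A.ρ τ (b τ') - b (τ * τ') + b τ = φ (f (ρ τ, ρ τ')))
    (a : A.V) (ha : ∀ n : Γ, ρ n = 1 → b n - φ (f (1, 1)) = A.ρ n a - a) :
    f ∈ coboundaries₂ B := by
  classical
  set e : A.V := φ (f (1, 1)) with he
  -- the corrected cochain
  set b' : Γ → A.V := fun τ => b τ - e - (A.ρ τ a - a) with hb'
  have hker : ∀ n : Γ, ρ n = 1 → b' n = 0 := by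
    intro n hn
    simp only [hb']
    rw [ha n hn, sub_self]
  have hne : ∀ n : Γ, ρ n = 1 → A.ρ n e = e := by
    intro n hn
    rw [he, ← hφeq, hn, map_one]
    rfl
  -- coboundary of `b'`
  have hdb' : ∀ τ τ' : Γ, A.ρ τ (b' τ') - b' (τ * τ') + b' τ = φ (f (ρ τ, ρ τ')) - A.ρ τ e := by
    intro τ τ'
    have h := hb τ τ'
    simp only [hb', map_sub, map_mul, Module.End.mul_apply]
    rw [← h]
    abel
  have hf1 : ∀ x : D, f (x, 1) = B.ρ x (f (1, 1)) := fun x =>
    cocycles₂_map_one_snd ⟨f, hf⟩ x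
  have hf2 : ∀ x : D, f (1, x) = f (1, 1) := fun x =>
    cocycles₂_map_one_fst ⟨f, hf⟩ x
  -- right invariance
  have hright : ∀ (τ n : Γ), ρ n = 1 → b' (τ * n) = b' τ := by
    intro τ n hn
    have h := hdb' τ n
    rw [hker n hn, map_zero, zero_sub, hn, hf1, hφeq, ← he, sub_self] at h
    rwa [neg_add_eq_zero] at h
  -- values are fixed by `ker ρ`
  have hfix : ∀ (τ n : Γ), ρ n = 1 → A.ρ n (b' τ) = b' τ := by
    intro τ n hn
    have h := hdb' n τ
    have hconj : b' (n * τ) = b' τ := by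
      have : n * τ = τ * (τ⁻¹ * n * τ) := by group
      rw [this]
      apply hright
      simp [hn]
    rw [hconj, hker n hn, add_zero, hn, hf2, ← he, hne n hn, sub_self, sub_eq_zero] at h
    exact h
  -- descend
  have hex : ∀ τ : Γ, ∃ y : B.V, φ y = b' τ := fun τ => hφrange _ (hfix τ)
  choose y hy using hex
  let s : D → Γ := Function.surjInv hρ
  have hs : ∀ x, ρ (s x) = x := Function.surjInv_eq hρ
  have hbar : ∀ τ : Γ, φ (y (s (ρ τ))) = b' τ := by
    intro τ
    rw [hy]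
    have : τ = s (ρ τ) * ((s (ρ τ))⁻¹ * τ) := by group
    conv_rhs => rw [this]
    symm
    apply hright
    simp [hs]
  refine ⟨fun x => y (s x) + f (1, 1), ?_⟩
  funext ⟨x, x'⟩
  rw [d₁₂_hom_apply]
  apply hφinj
  obtain ⟨τ, rfl⟩ := hρ x
  obtain ⟨τ', rfl⟩ := hρ x'
  have h := hdb' τ τ'
  simp only [map_add, map_sub, hφeq, ← map_mul, hbar]
  rw [← he]
  have h' : A.ρ τ (b' τ') - b' (τ * τ') + b' τ + A.ρ τ e = φ (f (ρ τ, ρ τ')) := by
    rw [h]; abel
  rw [← h']
  abel

end Fermat.Agent.S55.G.Rec.HP
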