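import Mathlib

/-!
# S55 / REC / HP : Hilbert 90 for 1-cocycles of finite level

`K̄/K` a Galois extension (no finiteness), `V₀ ≤ Gal(K̄/K)` a subgroup, `E'/K` a finite normal
subextension with `Gal(K̄/E') ≤ V₀`.  A 1-cocycle `β : V₀ → K̄ˣ` which is constant modulo
`Gal(K̄/E')` is a coboundary: `β n = n a / a`.
-/

set_option autoImplicit false

namespace Fermat.Agent.S55.G.Rec.HP

section Noether

variable {K L : Type*} [Field K] [Field L] [Algebra K L] [FiniteDimensional K L]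

/-- Noether's form of Hilbert 90 for a subgroup `H ≤ Gal(L/K)` (Dedekind independence). -/
theorem hilbert90_subgroup473 (H : Subgroup (L ≃ₐ[K] L)) (f : H → Lˣ)
    (hf : ∀ g h : H, f (g * h) = (g : L ≃ₐ[K] L) • f h * f g) :
    ∃ β : Lˣ, ∀ g : H, (g : L ≃ₐ[K] L) • β / β = f g := by
  classical
  have hli : LinearIndependent L (fun h : H => (((h : L ≃ₐ[K] L) : L → L))) :=
    LinearIndependent.comp (ι' := H) (linearIndependent_monoidHom L L)
      (fun h => (((h : L ≃ₐ[K] L) : L →ₐ[K] L) : L →* L))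
      (fun x y h => Subtype.ext (by
        ext z
        exact DFunLike.congr_fun h z))
  have hne : (∑ h : H, (f h : L) • (((h : L ≃ₐ[K] L) : L → L))) ≠ 0 := by
    intro h0
    have := Fintype.linearIndependent_iff.1 hli (fun h => (f h : L)) h0 1
    exact Units.ne_zero (f 1) this
  obtain ⟨z, hz⟩ : ∃ z, (∑ h : H, (f h : L) • (((h : L ≃ₐ[K] L) : L → L))) z ≠ 0 :=
    not_forall.1 (fun hall => hne (funext hall))
  have hz' : (∑ h : H, (f h : L) * (h : L ≃ₐ[K] L) z) ≠ 0 := by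
    simpa [Finset.sum_apply] using hz
  refine ⟨(Units.mk0 _ hz')⁻¹, fun g => ?_⟩
  rw [smul_inv', div_inv_eq_mul, inv_mul_eq_iff_eq_mul]
  apply Units.ext
  simp only [Units.val_mul, Units.val_mk0, AlgEquiv.smul_units_def, Units.coe_map,
    MonoidHom.coe_coe]
  rw [map_sum, Finset.sum_mul]
  have := Fintype.sum_bijective (fun i : H => g * i) (Group.mulLeft_bijective g)
    (fun i => (f (g * i) : L) * ((g * i : H) : L ≃ₐ[K] L) z)
    (fun i => (f i : L) * (i : L ≃ₐ[K] L) z) (fun i => rfl)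
  rw [← this]
  refine Finset.sum_congr rfl fun i _ => ?_
  rw [hf g i]
  simp only [Units.val_mul, AlgEquiv.smul_units_def, Units.coe_map, MonoidHom.coe_coe,
    Subgroup.coe_mul, AlgEquiv.mul_apply, map_mul]
  ring

end Noether

section Level

variable {K Kb : Type*} [Field K] [Field Kb] [Algebra K Kb] [IsGalois K Kb]

/-- **Hilbert 90 at finite level**, absolute form. -/
theorem exists_hilbert90_level (V₀ : Subgroup (Kb ≃ₐ[K] Kb)) (E' : IntermediateField K Kb)
    [FiniteDimensional K E'] [Normal K E'] (hE' : E'.fixingSubgroup ≤ V₀)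
    (β : ↥V₀ → Kbˣ)
    (hcoc : ∀ n n' : ↥V₀, β (n * n') = (n : Kb ≃ₐ[K] Kb) • β n' * β n)
    (hconst : ∀ n s : ↥V₀, (s : Kb ≃ₐ[K] Kb) ∈ E'.fixingSubgroup → β (n * s) = β n) :
    ∃ a : Kbˣ, ∀ n : ↥V₀, β n = (n : Kb ≃ₐ[K] Kb) • a / a := by
  classical
  -- `β 1 = 1`
  have h1 : β 1 = 1 := by
    have h := hcoc 1 1
    rw [mul_one, Subgroup.coe_one, one_smul] at h
    exact (mul_eq_left.1 h.symm)
  -- the fixing subgroup is normal
  have hnorm : (E'.fixingSubgroup).Normal := by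
    rw [← E'.restrictNormalHom_ker]
    exact MonoidHom.normal_ker _
  -- `β` is trivial on `Gal(K̄/E')`
  have hβs : ∀ s : ↥V₀, (s : Kb ≃ₐ[K] Kb) ∈ E'.fixingSubgroup → β s = 1 := by
    intro s hs
    have := hconst 1 s hs
    rwa [one_mul, h1] at this
  -- the values of `β` are fixed by `Gal(K̄/E')`
  have hfix : ∀ (n : ↥V₀) (s : Kb ≃ₐ[K] Kb), s ∈ E'.fixingSubgroup → s • β n = β n := by
    intro n s hs
    let s' : ↥V₀ := ⟨s, hE' hs⟩
    have hconj : ((n⁻¹ * s' * n : ↥V₀) : Kb ≃ₐ[K] Kb) ∈ E'.fixingSubgroup := by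
      have := hnorm.conj_mem s hs (n⁻¹ : ↥V₀)
      simpa [mul_assoc] using this
    have e1 : β (s' * n) = β n := by
      have : s' * n = n * (n⁻¹ * s' * n) := by group
      rw [this]
      exact hconst n _ hconj
    have e2 := hcoc s' n
    rw [e1, hβs s' hs, mul_one] at e2
    exact e2.symm
  -- so they lie in `E'`
  have hmem : ∀ n : ↥V₀, ((β n : Kbˣ) : Kb) ∈ E' := by
    intro n
    rw [← InfiniteGalois.fixedField_fixingSubgroup E']
    rintro ⟨s, hs⟩
    have := congrArg (fun u : Kbˣ => (u : Kb)) (hfix n s hs)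
    exact this
  -- restriction to `E'`
  let r : ↥V₀ →* (E' ≃ₐ[K] E') := (AlgEquiv.restrictNormalHom E').comp V₀.subtype
  have hr : ∀ (n : ↥V₀) (x : E'), ((r n x : E') : Kb) = (n : Kb ≃ₐ[K] Kb) (x : Kb) := by
    intro n x
    change algebraMap E' Kb (AlgEquiv.restrictNormal (n : Kb ≃ₐ[K] Kb) E' x) = _
    rw [AlgEquiv.restrictNormal_commutes]
    rfl
  have hrker : ∀ n : ↥V₀, r n = 1 → (n : Kb ≃ₐ[K] Kb) ∈ E'.fixingSubgroup := by
    intro n hn
    rw [IntermediateField.mem_fixingSubgroup_iff]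
    intro x hx
    have := hr n ⟨x, hx⟩
    rw [hn] at this
    exact this.symm
  have hreq : ∀ n n' : ↥V₀, r n = r n' → β n = β n' := by
    intro n n' h
    have hk : r (n⁻¹ * n') = 1 := by rw [map_mul, map_inv, h, inv_mul_cancel]
    have := hconst n (n⁻¹ * n') (hrker _ hk)
    rw [mul_inv_cancel_left] at this
    exact this.symm
  -- the finite-level cocycle
  let H : Subgroup (E' ≃ₐ[K] E') := r.range
  have hsurj : ∀ h : ↥H, ∃ n : ↥V₀, r n = (h : E' ≃ₐ[K] E') := fun h => h.2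
  choose lift hlift using hsurj
  let βH : ↥H → (↥E')ˣ := fun h =>
    Units.mk0 (⟨((β (lift h) : Kbˣ) : Kb), hmem (lift h)⟩ : E') (by
      intro h0
      have := congrArg (fun x : E' => (x : Kb)) h0
      exact Units.ne_zero (β (lift h)) this)
  have hβH : ∀ h : ↥H, (((βH h : (↥E')ˣ) : E') : Kb) = ((β (lift h) : Kbˣ) : Kb) := fun _ => rfl
  have hcocH : ∀ g h : ↥H, βH (g * h) = (g : E' ≃ₐ[K] E') • βH h * βH g := by
    intro g h
    apply Units.ext
    apply Subtype.ext
    rw [hβH]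
    have e1 : β (lift (g * h)) = β (lift g * lift h) := by
      apply hreq
      rw [hlift, map_mul, hlift, hlift]
      rfl
    rw [e1, hcoc]
    simp only [Units.val_mul, AlgEquiv.smul_units_def, Units.coe_map, MonoidHom.coe_coe,
      MulMemClass.coe_mul]
    rw [hβH g, ← hlift g, hr, hβH h]
  obtain ⟨a', ha'⟩ := hilbert90_subgroup473 H βH hcocH
  refine ⟨Units.map (algebraMap E' Kb : E' →* Kb) a', fun n => ?_⟩
  have hn : r n ∈ H := ⟨n, rfl⟩
  have e1 : β n = β (lift ⟨r n, hn⟩) := hreq _ _ (hlift ⟨r n, hn⟩).symm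
  have e2 := ha' ⟨r n, hn⟩
  have ha0 : ((a' : E') : Kb) ≠ 0 := by
    intro h0
    exact Units.ne_zero a' (Subtype.ext h0)
  have e3 : ((β n : Kbˣ) : Kb) = (n : Kb ≃ₐ[K] Kb) ((a' : E') : Kb) / ((a' : E') : Kb) := by
    have e3' := congrArg (fun u : (↥E')ˣ => (((u : E') : Kb))) e2
    simp only at e3'
    rw [hβH, ← e1] at e3'
    rw [← e3', ← hr n (a' : E')]
    simp only [Units.val_div_eq_div_val, AlgEquiv.smul_units_def, Units.coe_map,
      MonoidHom.coe_coe, IntermediateField.coe_div]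
  rw [eq_div_iff_mul_eq'']
  apply Units.ext
  simp only [Units.val_mul, AlgEquiv.smul_units_def, Units.coe_map, MonoidHom.coe_coe]
  rw [e3]
  change ((a' : E') : Kb) * _ = (n : Kb ≃ₐ[K] Kb) ((a' : E') : Kb)
  field_simp

end Level

end Fermat.Agent.S55.G.Rec.HP
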