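import Fermat.Agent.S55.G.Rec.HP.LocEmb
import Fermat.Agent.S55.G.Rec.HP.LocH90
import Fermat.Agent.S55.G.Rec.HP.InflInj

/-!
# S55 / REC / HP : leaf HP-LG, `localGlue : LocalGlueSpec`

If the absolute localisations `locBr q g U [c]` of a level class vanish at all places `(q, g)`,
then the intrinsic localisations `locMapL S (lvlGal U F) 𝔪 2 [f]` of the finite-level class
vanish at all places `𝔪 ∈ SPlace S F`.
-/

set_option autoImplicit false
set_option linter.unusedSectionVars false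
set_option linter.style.haveILetI false

noncomputable section

namespace Fermat.Agent.S55.G.Rec.HP

open groupCohomology CategoryTheory Fermat.Agent.S55.Bridge.H175 Fermat.Agent.S55.G

local notation "Qb" => AlgebraicClosure ℚ
local notation "GQ" => (AlgebraicClosure ℚ ≃ₐ[ℚ] AlgebraicClosure ℚ)

section

variable {S : Finset Nat.Primes} {F : IntermediateField ℚ Qb} [FiniteDimensional ℚ F]
  [Normal ℚ F] {𝔪 : SPlace S ↥F} {q : ℕ} [Fact q.Prime] (P : PlaceEmb S F 𝔪 q)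
  (U : Subgroup GQ)

/-- The coefficient map `F_𝔪ˣ → ℚ̄_qˣ` induced by `φ`, additively. -/
def PlaceEmb.φU : Additive (LocField S 𝔪)ˣ →+ Additive (PadicAlgCl q)ˣ :=
  MonoidHom.toAdditive (Units.map (P.φ : LocField S 𝔪 →* PadicAlgCl q))

lemma PlaceEmb.φU_coe (y : Additive (LocField S 𝔪)ˣ) :
    (((P.φU y).toMul : (PadicAlgCl q)ˣ) : PadicAlgCl q) = P.φ ((y.toMul : (LocField S 𝔪)ˣ)) :=
  rfl

lemma PlaceEmb.φU_injective : Function.Injective P.φU := by
  intro y y' h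
  apply Additive.toMul.injective
  apply Units.ext
  apply P.φ_injective
  have := congrArg (fun z : Additive (PadicAlgCl q)ˣ => ((z.toMul : (PadicAlgCl q)ˣ) :
    PadicAlgCl q)) h
  exact this

/-- Equivariance of `φU`. -/
lemma PlaceEmb.φU_equivariant (τ : ↥(locSub q P.g U)) (y : Additive (LocField S 𝔪)ˣ) :
    P.φU ((LocRep S ↥(lvlGal U F) 𝔪).ρ (P.rhoD U τ) y) =
      (lModOn q (locSub q P.g U)).ρ τ (P.φU y) := by
  apply Additive.toMul.injective
  apply Units.ext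
  change P.φ (locAut S ↥(lvlGal U F) 𝔪 (P.rhoD U τ) ((y.toMul : (LocField S 𝔪)ˣ))) =
    (τ : PadicAlgCl q ≃ₐ[ℚ_[q]] PadicAlgCl q) (P.φ ((y.toMul : (LocField S 𝔪)ˣ)))
  exact P.φ_locAut U τ _

variable {U} in
lemma PlaceEmb.φU_range (hFU : F.fixingSubgroup ≤ U) (a : Additive (PadicAlgCl q)ˣ)
    (h : ∀ τ : ↥(locSub q P.g U), P.rhoD U τ = 1 →
      (lModOn q (locSub q P.g U)).ρ τ a = a) :
    ∃ y, P.φU y = a := by
  have h' : ∀ τ : ↥(locSub q P.g U), P.rhoD U τ = 1 →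
      (τ : PadicAlgCl q ≃ₐ[ℚ_[q]] PadicAlgCl q) ((a.toMul : (PadicAlgCl q)ˣ) : PadicAlgCl q) =
        ((a.toMul : (PadicAlgCl q)ˣ) : PadicAlgCl q) := by
    intro τ hτ
    have := congrArg (fun z : Additive (PadicAlgCl q)ˣ => ((z.toMul : (PadicAlgCl q)ˣ) :
      PadicAlgCl q)) (h τ hτ)
    exact this
  obtain ⟨y₀, hy₀⟩ := P.mem_range_φ_of_fixed hFU _ h'
  have hy₀0 : y₀ ≠ 0 := by
    rintro rfl
    rw [map_zero] at hy₀
    exact Units.ne_zero (a.toMul) hy₀.symm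
  refine ⟨Additive.ofMul (Units.mk0 y₀ hy₀0), ?_⟩
  apply Additive.toMul.injective
  apply Units.ext
  exact hy₀

/-- The pullback formula: the absolute localisation of an inflated cocycle is the `(ρ, φ)`-
inflation of the intrinsic localisation. -/
lemma PlaceEmb.locCochain₂_infl (f : ↥(lvlGal U F) × ↥(lvlGal U F) → Additive (↥F)ˣ)
    (τ τ' : ↥(locSub q P.g U)) :
    locCochain₂ q P.g U (gInflCochain₂ U F f) (τ, τ') =
      P.φU (lToLoc S 𝔪 (f (P.rho U τ, P.rho U τ'))) := by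
  apply Additive.toMul.injective
  apply Units.ext
  change padicEmbedding q (P.g⁻¹ ((((f (lvlHom U F (locHom q P.g U τ),
    lvlHom U F (locHom q P.g U τ'))).toMul : (↥F)ˣ) : F) : Qb)) = _
  rw [← P.φ_toLoc]
  rfl

end

/-- **HP-LG.** -/
theorem localGlue : LocalGlueSpec := by
  intro U F _ _ hFU f c hinf hloc S 𝔪
  obtain ⟨q, hq, ⟨P⟩⟩ := exists_placeEmb S F 𝔪
  -- the intrinsic local cocycle
  set Γ := ↥(lvlGal U F) with hΓ
  set floc : cocycles₂ (LocRep S Γ 𝔪) :=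
    (mapCocycles₂ (decomp S Γ 𝔪).subtype (lToLocRepHom S Γ 𝔪)).hom f with hfloc
  have hfloc_apply : ∀ d d' : ↥(decomp S Γ 𝔪),
      (floc : ↥(decomp S Γ 𝔪) × ↥(decomp S Γ 𝔪) → _) (d, d') =
        lToLoc S 𝔪 ((f : Γ × Γ → Additive (↥F)ˣ) ((d : Γ), (d' : Γ))) := by
    intro d d'
    rfl
  have hgoal : (locMapL S Γ 𝔪 2).hom ((H2π (LRep Γ ↥F)).hom f) = (H2π (LocRep S Γ 𝔪)).hom floc :=
    congr($(H2π_comp_map (decomp S Γ 𝔪).subtype (lToLocRepHom S Γ 𝔪)) f)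
  rw [hgoal, H2π_eq_zero_iff]
  -- the absolute local coboundary
  have h0 := hloc q P.g
  rw [locBr_mk, continuousH2π_eq_zero_iff, mem_levelCoboundaries₂_iff] at h0
  obtain ⟨b, hblev, hb⟩ := h0
  have hb' : ∀ τ τ' : ↥(locSub q P.g U),
      (lModOn q (locSub q P.g U)).ρ τ (b τ') - b (τ * τ') + b τ =
        P.φU ((floc : ↥(decomp S Γ 𝔪) × ↥(decomp S Γ 𝔪) → _) (P.rhoD U τ, P.rhoD U τ')) := by
    intro τ τ'
    have h1 := congrFun hb (τ, τ')
    rw [d₁₂_hom_apply, coe_locCocycles₂, hinf] at h1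
    rw [h1, P.locCochain₂_infl U, hfloc_apply]
    rfl
  -- Hilbert 90 on `ker ρ`
  set e : (lModOn q (locSub q P.g U)).V :=
    P.φU ((floc : ↥(decomp S Γ 𝔪) × ↥(decomp S Γ 𝔪) → _) (1, 1)) with he
  have hH90 : ∃ a : (lModOn q (locSub q P.g U)).V, ∀ n : ↥(locSub q P.g U), P.rhoD U n = 1 →
      b n - e = (lModOn q (locSub q P.g U)).ρ n a - a := by
    obtain ⟨Fb, hFbfin, hFb⟩ := hblev
    have hnQ : Normal ℚ Qb := normal_Qb
    have hgal := isGalois_padicAlgCl473 q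
    let F₁ : IntermediateField ℚ Qb := IntermediateField.normalClosure ℚ ↥(F ⊔ Fb) Qb
    have hle : F ⊔ Fb ≤ F₁ := IntermediateField.le_normalClosure _
    have hF₁fin : FiniteDimensional ℚ F₁ := normalClosure.is_finiteDimensional ..
    have hF₁norm : Normal ℚ F₁ := normalClosure.normal ..
    let E' : IntermediateField ℚ_[q] (PadicAlgCl q) := localLevel q F₁
    have hE'fin : FiniteDimensional ℚ_[q] E' := finiteDimensional_localLevel q F₁
    have hE'norm : Normal ℚ_[q] E' := normal_localLevel q F₁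
    let V₀ : Subgroup (PadicAlgCl q ≃ₐ[ℚ_[q]] PadicAlgCl q) :=
      ((P.rhoD U).ker).map (locSub q P.g U).subtype
    have hE' : E'.fixingSubgroup ≤ V₀ := by
      intro τ hτ
      have h1 : τ ∈ (localLevel q F).fixingSubgroup :=
        IntermediateField.fixingSubgroup_antitone
          (localLevel_mono (le_sup_left.trans hle)) hτ
      obtain ⟨hV, h2⟩ := P.rhoD_of_fixing hFU τ h1
      exact ⟨⟨τ, hV⟩, h2, rfl⟩
    have hV₀mem : ∀ n : ↥V₀, (n : PadicAlgCl q ≃ₐ[ℚ_[q]] PadicAlgCl q) ∈ locSub q P.g U := by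
      intro n
      obtain ⟨x, -, hx⟩ := n.2
      rw [← hx]
      exact x.2
    have hV₀ker : ∀ n : ↥V₀, P.rhoD U ⟨n, hV₀mem n⟩ = 1 := by
      intro n
      obtain ⟨x, hxk, hx⟩ := n.2
      have : x = ⟨n, hV₀mem n⟩ := Subtype.ext hx
      rw [← this]
      exact hxk
    have hne : ∀ n : ↥V₀, (lModOn q (locSub q P.g U)).ρ ⟨n, hV₀mem n⟩ e = e := by
      intro n
      rw [he, ← P.φU_equivariant U, hV₀ker n, map_one]
      rfl
    let β : ↥V₀ → (PadicAlgCl q)ˣ := fun n =>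
      Additive.toMul ((b ⟨n, hV₀mem n⟩ - e : (lModOn q (locSub q P.g U)).V) :
        Additive (PadicAlgCl q)ˣ)
    have hcoc : ∀ n n' : ↥V₀, β (n * n') =
        (n : PadicAlgCl q ≃ₐ[ℚ_[q]] PadicAlgCl q) • β n' * β n := by
      intro n n'
      have h1 := hb' ⟨n, hV₀mem n⟩ ⟨n', hV₀mem n'⟩
      rw [hV₀ker n, hV₀ker n', ← he] at h1
      apply Additive.ofMul.injective
      change b (⟨n, hV₀mem n⟩ * ⟨n', hV₀mem n'⟩) - e =
        (lModOn q (locSub q P.g U)).ρ ⟨n, hV₀mem n⟩ (b ⟨n', hV₀mem n'⟩ - e) +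
          (b ⟨n, hV₀mem n⟩ - e)
      rw [map_sub, hne n]
      have h2 : b (⟨n, hV₀mem n⟩ * ⟨n', hV₀mem n'⟩) =
          (lModOn q (locSub q P.g U)).ρ ⟨n, hV₀mem n⟩ (b ⟨n', hV₀mem n'⟩) +
            b ⟨n, hV₀mem n⟩ - e := by
        rw [← h1]; abel
      rw [h2]; abel
    have hconst : ∀ n s : ↥V₀,
        (s : PadicAlgCl q ≃ₐ[ℚ_[q]] PadicAlgCl q) ∈ E'.fixingSubgroup → β (n * s) = β n := by
      intro n s hs
      have h1 : localGaloisToGlobal q (s : PadicAlgCl q ≃ₐ[ℚ_[q]] PadicAlgCl q) ∈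
          Fb.fixingSubgroup :=
        IntermediateField.fixingSubgroup_antitone (le_sup_right.trans hle)
          ((mem_fixingSubgroup_localLevel_iff q F₁ _).1 hs)
      have h2 := hFb ⟨n, hV₀mem n⟩ ⟨s, hV₀mem s⟩ h1
      change Additive.toMul ((b (⟨n, hV₀mem n⟩ * ⟨s, hV₀mem s⟩) - e :
        (lModOn q (locSub q P.g U)).V) : Additive (PadicAlgCl q)ˣ) = _
      rw [h2]
      rfl
    obtain ⟨a, ha⟩ := exists_hilbert90_level V₀ E' hE' β hcoc hconst
    refine ⟨(Additive.ofMul a : Additive (PadicAlgCl q)ˣ), fun n hn => ?_⟩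
    have hnV₀ : (n : PadicAlgCl q ≃ₐ[ℚ_[q]] PadicAlgCl q) ∈ V₀ := ⟨n, hn, rfl⟩
    have h3 := ha ⟨n, hnV₀⟩
    apply Additive.toMul.injective
    exact h3
  obtain ⟨a, ha⟩ := hH90
  exact mem_coboundaries₂_of_infl (lModOn q (locSub q P.g U)) (LocRep S Γ 𝔪) (P.rhoD U)
    (P.rhoD_surjective hFU) P.φU P.φU_injective (P.φU_equivariant U) (P.φU_range hFU)
    floc floc.2 b hb' a ha

end Fermat.Agent.S55.G.Rec.HP
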