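import Fermat.Agent.S55.G.Rec.HP.Spec
import Fermat.Agent.S55.T.CoresH572

/-!
# S55 / layer G / block REC / adapter HP : leaf HP-SYL (helper841, subtask 484)

`hasseFin_of : HasseFinPSpec p → HasseFinSpec p` (`p` prime): the finite-level Hasse principle
for `p`-primary classes follows from the case of `p`-groups, by restriction to a Sylow
`p`-subgroup `P ≤ Γ` (`[Γ : P] • x = 0` if `res_P x = 0`, layer T `ResIndexSpec`), since the
localisation maps commute with restriction.
-/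

set_option autoImplicit false
set_option linter.unusedSectionVars false

noncomputable section

namespace Fermat.Agent.S55.G.Rec.HP.H841

open groupCohomology CategoryTheory

section Square

variable (S : Finset Nat.Primes) {Γ : Type} (L : Type) [Group Γ] [Field L] [CharZero L]
  [MulSemiringAction Γ L] (P : Subgroup Γ)

/-- The restriction of `Lˣ` to a subgroup `P ≤ Γ` is `Lˣ` with its `P`-action. -/
lemma res_LRep : Rep.res P.subtype (G.LRep Γ L) = G.LRep ↥P L := rfl

/-- The decomposition group of `𝔪` in `P` sits inside the decomposition group in `Γ`. -/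
def decompIncl (𝔪 : G.SPlace S L) : ↥(G.decomp S ↥P 𝔪) →* ↥(G.decomp S Γ 𝔪) where
  toFun g := ⟨((g : ↥P) : Γ), g.2⟩
  map_one' := rfl
  map_mul' _ _ := rfl

@[simp] lemma decompIncl_coe (𝔪 : G.SPlace S L) (g : ↥(G.decomp S ↥P 𝔪)) :
    ((decompIncl S L P 𝔪 g : ↥(G.decomp S Γ 𝔪)) : Γ) = ((g : ↥P) : Γ) := rfl

/-- The local module of `P` at `𝔪` is the restriction of the local module of `Γ`. -/
lemma res_LocRep (𝔪 : G.SPlace S L) :
    Rep.res (decompIncl S L P 𝔪) (G.LocRep S Γ 𝔪) = G.LocRep S ↥P 𝔪 := rfl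

/-- The restriction map on the local cohomology groups. -/
def locRes (𝔪 : G.SPlace S L) (n : ℕ) :
    groupCohomology (G.LocRep S Γ 𝔪) n ⟶ groupCohomology (G.LocRep S ↥P 𝔪) n :=
  groupCohomology.map (decompIncl S L P 𝔪)
    (𝟙 (Rep.res (decompIncl S L P 𝔪) (G.LocRep S Γ 𝔪))) n

/-- The global restriction map `Hⁿ(Γ, Lˣ) ⟶ Hⁿ(P, Lˣ)`. -/
def globRes (n : ℕ) : groupCohomology (G.LRep Γ L) n ⟶ groupCohomology (G.LRep ↥P L) n :=
  groupCohomology.map P.subtype (𝟙 (Rep.res P.subtype (G.LRep Γ L))) n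

lemma globRes_eq_resMap (n : ℕ) :
    globRes L P n = Fermat.Agent.S55.T.resMap (G.LRep Γ L) P n := rfl

/-- **Localisation commutes with restriction to a subgroup.** -/
theorem globRes_locMapL (𝔪 : G.SPlace S L) (n : ℕ) :
    globRes L P n ≫ G.locMapL S ↥P 𝔪 n = G.locMapL S Γ 𝔪 n ≫ locRes S L P 𝔪 n := by
  have h1 := groupCohomology.map_comp (A := G.LRep Γ L) (B := G.LRep ↥P L)
    (C := G.LocRep S ↥P 𝔪) P.subtype (G.decomp S ↥P 𝔪).subtype
    (𝟙 (Rep.res P.subtype (G.LRep Γ L))) (G.lToLocRepHom S ↥P 𝔪) n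
  have h2 := groupCohomology.map_comp (A := G.LRep Γ L) (B := G.LocRep S Γ 𝔪)
    (C := G.LocRep S ↥P 𝔪) (G.decomp S Γ 𝔪).subtype (decompIncl S L P 𝔪)
    (G.lToLocRepHom S Γ 𝔪) (𝟙 (Rep.res (decompIncl S L P 𝔪) (G.LocRep S Γ 𝔪))) n
  exact h1.symm.trans ((groupCohomology.map_congr rfl rfl n).trans h2)

end Square

/-- **HP-SYL**: the finite-level Hasse principle for `p`-groups implies the finite-level Hasse
principle for classes of `p`-power order of arbitrary finite groups. -/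
theorem hasseFin_of (p : ℕ) [hp : Fact p.Prime] (hP : HasseFinPSpec p) : HasseFinSpec p := by
  intro Γ L _ _ _ _ _ _ hζ x hx hloc
  obtain ⟨k, hk⟩ := hx
  classical
  obtain ⟨P⟩ : Nonempty (Sylow p Γ) := inferInstance
  have h0 : (globRes L (P : Subgroup Γ) 2).hom x = 0 := by
    refine hP ↥(P : Subgroup Γ) L P.isPGroup' hζ _ ?_
    intro S 𝔪
    have h := ConcreteCategory.congr_hom (globRes_locMapL S L (P : Subgroup Γ) 𝔪 2) x
    rw [ConcreteCategory.comp_apply, ConcreteCategory.comp_apply] at h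
    rw [h, hloc S 𝔪, map_zero]
  have h1 : (P : Subgroup Γ).index • x = 0 :=
    Fermat.Agent.S55.T.H572.resIndex ℤ Γ (G.LRep Γ L) (P : Subgroup Γ) 2 (by norm_num) x h0
  have hcop : Nat.Coprime (P : Subgroup Γ).index (p ^ k) :=
    Nat.Coprime.pow_right k ((Nat.Prime.coprime_iff_not_dvd hp.out).2 P.not_dvd_index).symm
  have h3 : addOrderOf x ∣ 1 := by
    rw [← Nat.Coprime.gcd_eq_one hcop]
    exact Nat.dvd_gcd (addOrderOf_dvd_of_nsmul_eq_zero h1) (addOrderOf_dvd_of_nsmul_eq_zero hk)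
  exact AddMonoid.addOrderOf_eq_one_iff.1 (Nat.dvd_one.1 h3)

end Fermat.Agent.S55.G.Rec.HP.H841

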