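import Fermat.Agent.S55.G.Rec.HP.Glue
import Fermat.Agent.S55.G.Rec.HP.LocalGlue
import Fermat.Agent.S55.G.Rec.HP.DescH126
import Fermat.Agent.S55.G.Rec.HP.FinPH795
import Fermat.Agent.S55.G.Rec.HP.SylH841

/-!
# S55 / layer G / block REC / adapter HP : MAIN THEOREM  (subtask 378, REC2-HP)

`hassePrinciple : G.PClassUpperSpec → G.ClassShortExactSpec → G.ShapiroJSpec →
    HassePrincipleSpec p`   (`p` an odd prime).

Leaves: `localGlue` (helper473), `H126.globalDescent`, `H126.globalUp` (helper126),
`H795.hasseFinP_of` (helper795; second proof `H599.hasseFinP_of`), `H841.hasseFin_of`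
(helper841), assembly `hassePrinciple_of` (helper473).
-/

set_option autoImplicit false

namespace Fermat.Agent.S55.G.Rec.HP

/-- **HP**: the Hasse principle for the `p`-primary part of the Brauer group of every number
field inside `ℚ̄` (Prelude cochains), from the class module upper bound of layer G. -/
theorem hassePrinciple (p : ℕ) [Fact p.Prime] (hp2 : p ≠ 2) (hUP : G.PClassUpperSpec)
    (hSES : G.ClassShortExactSpec) (hLOC : G.ShapiroJSpec) : HassePrincipleSpec p :=
  hassePrinciple_of p (H841.hasseFin_of p (H795.hasseFinP_of p hp2 hUP hSES hLOC))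
    H126.globalDescent H126.globalUp localGlue

end Fermat.Agent.S55.G.Rec.HP
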