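import Fermat.Agent.S55.G.Rec.HP.Main
import Fermat.Agent.S55.G.AllH604
import Fermat.Agent.S55.G.Rec.Reciprocity

/-!
# S55 / layer G / block REC : the Hasse principle and the reciprocity law, UNCONDITIONAL

* `hassePrincipleClosed p (hp2 : p ≠ 2) : HassePrincipleSpec p` :
  `Br(K)(p) ↪ ∏_v Br(K_v)` for every number field `K = ℚ̄^U` (Prelude cochains), `p` odd.
* `reciprocityClosed I p hp2 : ReciprocitySpec I p` : for EVERY local invariant system `I`
  (`Rec/Spec.lean`), `∑_v inv_v (x_v) = 0` on `Br(K)(p)`.

Inputs, all on main: `G.AllH604` (first and second inequality, descent, `G-UP`, `G-SES`, `G-LOC`),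
`Rec.reciprocity` (norm route, helper1), `HP.hassePrinciple` (adapter HP, helper473).
The only remaining input of block REC is the EXISTENCE of a `LocalInvSystem` (`Rec/Loc/`).
-/

set_option autoImplicit false

namespace Fermat.Agent.S55.G.Rec.HP

/-- **Hasse principle** for the `p`-primary part of the Brauer group, unconditional. -/
theorem hassePrincipleClosed (p : ℕ) [Fact p.Prime] (hp2 : p ≠ 2) : HassePrincipleSpec p :=
  hassePrinciple p hp2 G.AllH604.pClassUpper G.AllH604.classShortExact G.AllH604.shapiroJ

/-- **Reciprocity law** for the `p`-primary part of the Brauer group, for every local invariant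
system, unconditional. -/
theorem reciprocityClosed (I : LocalInvSystem) (p : ℕ) [Fact p.Prime] (hp2 : p ≠ 2) :
    ReciprocitySpec I p :=
  reciprocity I p hp2 (hassePrincipleClosed p hp2)

end Fermat.Agent.S55.G.Rec.HP
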