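import Fermat.Agent.S55.G.Rec.HP.Spec
import Fermat.Agent.S55.G.Rec.SupportFiniteH181

/-!
# S55 / layer G / block REC / adapter HP, leaf HP-GD (helper181)

* `globalDescent : GlobalDescentSpec` — a level cocycle on an open `U ≤ G_ℚ` with values in `ℚ̄ˣ`
  is the inflation of a cocycle of the finite group `lvlGal U F` with values in `Fˣ`, for a finite
  normal level `F` (above any given `F₁`); a relation `n • [c] = 0` descends.
* `globalUp : GlobalUpSpec` — a finite-level coboundary inflates to a level coboundary.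
-/

set_option autoImplicit false

noncomputable section

namespace Fermat.Agent.S55.G.Rec.HP.H181

open groupCohomology Fermat.Agent.S55.G.Rec Fermat.Agent.S55.G.Rec.HP

local notation "Qb" => AlgebraicClosure ℚ
local notation "GQ" => (AlgebraicClosure ℚ ≃ₐ[ℚ] AlgebraicClosure ℚ)

/-! ## The inclusion `Fˣ → ℚ̄ˣ` on the module level -/

section Incl

variable (U : Subgroup GQ) (F : IntermediateField ℚ Qb) [Normal ℚ F]

/-- The inclusion `Fˣ → ℚ̄ˣ` as an additive map of the underlying modules. -/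
def incl : Additive (↥F)ˣ →+ gModOn U :=
  (MonoidHom.toAdditive (unitsInclG F) : Additive (↥F)ˣ →+ Additive Qbˣ)

omit [Normal ℚ ↥F] in
lemma incl_apply (x : Additive (↥F)ˣ) :
    incl U F x = Additive.ofMul (unitsInclG F (Additive.toMul x)) := rfl

omit [Normal ℚ ↥F] in
lemma incl_injective : Function.Injective (incl U F) := by
  intro x y h
  have h1 : unitsInclG F (Additive.toMul x) = unitsInclG F (Additive.toMul y) := h
  have h2 : ((Additive.toMul x : (↥F)ˣ) : F) = ((Additive.toMul y : (↥F)ˣ) : F) := by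
    apply Subtype.ext
    exact congrArg (fun z : Qbˣ => (z : Qb)) h1
  exact Units.ext h2

lemma gInflCochain₂_apply (f : ↥(lvlGal U F) × ↥(lvlGal U F) → Additive (↥F)ˣ) (u u' : ↥U) :
    gInflCochain₂ U F f (u, u') = incl U F (f (lvlHom U F u, lvlHom U F u')) := rfl

lemma gInflCochain₁_apply (b : ↥(lvlGal U F) → Additive (↥F)ˣ) (u : ↥U) :
    gInflCochain₁ U F b u = incl U F (b (lvlHom U F u)) := rfl

/-- Equivariance of the inclusion. -/
lemma incl_ρ (u : ↥U) (x : Additive (↥F)ˣ) :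
    incl U F ((G.LRep ↥(lvlGal U F) ↥F).ρ (lvlHom U F u) x) = (gModOn U).ρ u (incl U F x) := by
  apply Additive.toMul.injective
  apply Units.ext
  exact lvlHom_smul_coe U F u ((Additive.toMul x : (↥F)ˣ) : F)

omit [Normal ℚ ↥F] in
/-- An element of `ℚ̄ˣ` fixed by `G_F` comes from `Fˣ`. -/
lemma exists_incl_eq (hFU : F.fixingSubgroup ≤ U) (m : gModOn U)
    (hm : ∀ σ : ↥U, (σ : GQ) ∈ F.fixingSubgroup → (gModOn U).ρ σ m = m) :
    ∃ x : Additive (↥F)ˣ, incl U F x = m := by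
  haveI : Algebra.IsAlgebraic ℚ Qb := AlgebraicClosure.isAlgebraic ℚ
  haveI : IsAlgClosure ℚ Qb := ⟨inferInstance, inferInstance⟩
  haveI : Normal ℚ Qb := IsAlgClosure.normal ℚ Qb
  haveI : IsGalois ℚ Qb := isGalois_iff.mpr ⟨inferInstance, inferInstance⟩
  have hfix : ∀ σ ∈ F.fixingSubgroup, σ ((Additive.toMul m : Qbˣ) : Qb) =
      ((Additive.toMul m : Qbˣ) : Qb) := by
    intro σ hσ
    have h1 := hm ⟨σ, hFU hσ⟩ hσ
    exact congrArg (fun z : gModOn U => ((Additive.toMul z : Qbˣ) : Qb)) h1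
  have hmem : ((Additive.toMul m : Qbˣ) : Qb) ∈ F := by
    rw [← InfiniteGalois.fixedField_fixingSubgroup F]
    exact fun h => hfix h.1 h.2
  have hne : (⟨_, hmem⟩ : F) ≠ 0 := by
    intro h0
    have := congrArg (fun z : F => (z : Qb)) h0
    exact Units.ne_zero (Additive.toMul m : Qbˣ) this
  refine ⟨Additive.ofMul (Units.mk0 ⟨_, hmem⟩ hne), ?_⟩
  apply Additive.toMul.injective
  apply Units.ext
  rfl

/-- The kernel of `lvlHom` consists of the elements of `U` fixing `F`. -/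
lemma coe_mem_fixingSubgroup_of_lvlHom_eq {u u' : ↥U} (h : lvlHom U F u = lvlHom U F u') :
    ((u⁻¹ * u' : ↥U) : GQ) ∈ F.fixingSubgroup := by
  rw [IntermediateField.mem_fixingSubgroup_iff]
  intro x hx
  have h1 : ((lvlHom U F u • (⟨x, hx⟩ : F) : F) : Qb) = ((lvlHom U F u' • (⟨x, hx⟩ : F) : F) : Qb) := by
    rw [h]
  rw [lvlHom_smul_coe, lvlHom_smul_coe] at h1
  show ((u : GQ)⁻¹) ((u' : GQ) x) = x
  rw [← h1]
  exact AlgEquiv.symm_apply_apply (u : GQ) x

lemma lvlHom_eq_one_of_mem {s : ↥U} (hs : (s : GQ) ∈ F.fixingSubgroup) : lvlHom U F s = 1 := by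
  apply Subtype.ext
  apply AlgEquiv.ext
  intro x
  apply Subtype.ext
  show ((lvlRes U F s x : F) : Qb) = (x : Qb)
  rw [lvlRes_apply_coe]
  exact hs ⟨x.1, x.2⟩

end Incl

/-! ## HP-GD -/

/-- The values of a level `1`-cochain `b` with `d b = n • c` are fixed by `G_F`. -/
lemma rho_eq_of_level₁ {U : Subgroup GQ} (F : IntermediateField ℚ Qb) [Normal ℚ F]
    {c : ↥U × ↥U → gModOn U} (hc : c ∈ cocycles₂ (gModOn U))
    (hconst : ∀ g g' s s' : ↥U, (s : GQ) ∈ F.fixingSubgroup → (s' : GQ) ∈ F.fixingSubgroup →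
      c (g * s, g' * s') = c (g, g'))
    {b : ↥U → gModOn U} (hbconst : ∀ g s : ↥U, (s : GQ) ∈ F.fixingSubgroup → b (g * s) = b g)
    (n : ℕ) (hb : (d₁₂ (gModOn U)).hom b = n • c)
    (σ : ↥U) (hσ : (σ : GQ) ∈ F.fixingSubgroup) (g : ↥U) :
    (gModOn U).ρ σ (b g) = b g := by
  have hcoc := (mem_cocycles₂_iff c).1 hc
  have hone : ((1 : ↥U) : GQ) ∈ F.fixingSubgroup := by
    rw [Subgroup.coe_one]
    exact one_mem _
  have h1 : ∀ k : ↥U, c (1, k) = c (1, 1) := by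
    intro k
    have := hcoc 1 1 k
    simp only [mul_one, one_mul, map_one, Module.End.one_apply] at this
    exact (add_left_cancel this).symm
  have h3 : c (σ, g) = c (1, 1) := by
    have := hconst 1 g σ 1 hσ hone
    rw [one_mul, mul_one] at this
    rw [this, h1]
  have h4 : b (σ * g) = b g := by
    have hs : ((g⁻¹ * σ * g : ↥U) : GQ) ∈ F.fixingSubgroup := by
      have := H181.conj_mem_fixingSubgroup F (g⁻¹ : GQ) hσ
      simpa using this
    have := hbconst g (g⁻¹ * σ * g) hs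
    rw [← this]
    congr 1
    group
  have h5 : b σ = b 1 := by
    have := hbconst 1 σ hσ
    rwa [one_mul] at this
  have h6 : b 1 = n • c (1, 1) := by
    have := congrFun hb (1, 1)
    rw [d₁₂_hom_apply] at this
    simpa using this
  have h7 := congrFun hb (σ, g)
  rw [d₁₂_hom_apply, h4, h5, h6] at h7
  have h8 : (n • c) (σ, g) = n • c (1, 1) := by
    rw [Pi.smul_apply, h3]
  rw [h8] at h7
  have h9 : (gModOn U).ρ σ (b g) - b g = 0 := by
    have := add_right_cancel (b := n • c (1, 1)) (a := (gModOn U).ρ σ (b g) - b g) (c := 0)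
    apply this
    rw [zero_add]
    exact h7
  exact sub_eq_zero.1 h9




section Core

variable (U : Subgroup GQ) (F : IntermediateField ℚ Qb) [Normal ℚ F]

/-- `incl` with source typed as the module underlying `G.LRep`. -/
def inclR : (G.LRep ↥(lvlGal U F) ↥F) →+ gModOn U := incl U F

lemma inclR_injective : Function.Injective (inclR U F) := incl_injective U F

lemma inclR_ρ (u : ↥U) (x : (G.LRep ↥(lvlGal U F) ↥F)) :
    inclR U F ((G.LRep ↥(lvlGal U F) ↥F).ρ (lvlHom U F u) x) = (gModOn U).ρ u (inclR U F x) :=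
  incl_ρ U F u x


set_option maxHeartbeats 1000000 in
/-- A finite-level `2`-cochain whose inflation is a cocycle is a cocycle. -/
lemma mem_cocycles₂_of_inclR (f₀ : ↥(lvlGal U F) × ↥(lvlGal U F) → (G.LRep ↥(lvlGal U F) ↥F))
    (c : ↥U × ↥U → gModOn U) (hc : c ∈ cocycles₂ (gModOn U))
    (h : ∀ u u' : ↥U, inclR U F (f₀ (lvlHom U F u, lvlHom U F u')) = c (u, u')) :
    f₀ ∈ cocycles₂ (G.LRep ↥(lvlGal U F) ↥F) := by
  rw [mem_cocycles₂_iff]
  intro x y z
  obtain ⟨u, rfl⟩ := lvlHom_surjective U F x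
  obtain ⟨v, rfl⟩ := lvlHom_surjective U F y
  obtain ⟨w, rfl⟩ := lvlHom_surjective U F z
  have hcoc := (mem_cocycles₂_iff c).1 hc u v w
  apply inclR_injective U F
  have e1 := inclR_ρ U F u (f₀ (lvlHom U F v, lvlHom U F w))
  rw [map_add, map_add, e1, ← map_mul, ← map_mul, h, h, h, h]
  exact hcoc

set_option maxHeartbeats 1000000 in
/-- A finite-level `1`-cochain whose inflation has coboundary `n • c`. -/
lemma d₁₂_eq_of_inclR (f₀ : ↥(lvlGal U F) × ↥(lvlGal U F) → (G.LRep ↥(lvlGal U F) ↥F))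
    (b₀ : ↥(lvlGal U F) → (G.LRep ↥(lvlGal U F) ↥F))
    (c : ↥U × ↥U → gModOn U) (b : ↥U → gModOn U) (n : ℕ)
    (hb : (d₁₂ (gModOn U)).hom b = n • c)
    (h : ∀ u u' : ↥U, inclR U F (f₀ (lvlHom U F u, lvlHom U F u')) = c (u, u'))
    (h' : ∀ u : ↥U, inclR U F (b₀ (lvlHom U F u)) = b u) :
    (d₁₂ (G.LRep ↥(lvlGal U F) ↥F)).hom b₀ = n • f₀ := by
  funext ⟨x, y⟩
  obtain ⟨u, rfl⟩ := lvlHom_surjective U F x
  obtain ⟨v, rfl⟩ := lvlHom_surjective U F y
  have h1 := congrFun hb (u, v)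
  rw [d₁₂_hom_apply, Pi.smul_apply] at h1
  rw [d₁₂_hom_apply, Pi.smul_apply]
  apply inclR_injective U F
  have e1 := inclR_ρ U F u (b₀ (lvlHom U F v))
  show inclR U F ((G.LRep ↥(lvlGal U F) ↥F).ρ (lvlHom U F u) (b₀ (lvlHom U F v)) -
      b₀ (lvlHom U F u * lvlHom U F v) + b₀ (lvlHom U F u)) =
    inclR U F (n • f₀ (lvlHom U F u, lvlHom U F v))
  rw [map_add, map_sub, e1, ← map_mul, h', h', h', map_nsmul, h]
  exact h1

set_option maxHeartbeats 1000000 in
/-- The inflation of a finite-level coboundary is a coboundary. -/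
lemma d₁₂_inclR (f₀ : ↥(lvlGal U F) × ↥(lvlGal U F) → (G.LRep ↥(lvlGal U F) ↥F))
    (b₀ : ↥(lvlGal U F) → (G.LRep ↥(lvlGal U F) ↥F))
    (hb : (d₁₂ (G.LRep ↥(lvlGal U F) ↥F)).hom b₀ = f₀) :
    (d₁₂ (gModOn U)).hom (fun u => inclR U F (b₀ (lvlHom U F u))) =
      fun p : ↥U × ↥U => inclR U F (f₀ (lvlHom U F p.1, lvlHom U F p.2)) := by
  funext ⟨u, v⟩
  have h1 := congrFun hb (lvlHom U F u, lvlHom U F v)
  rw [d₁₂_hom_apply] at h1
  have e1 := inclR_ρ U F u (b₀ (lvlHom U F v))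
  rw [d₁₂_hom_apply]
  show (gModOn U).ρ u (inclR U F (b₀ (lvlHom U F v))) - inclR U F (b₀ (lvlHom U F (u * v))) +
      inclR U F (b₀ (lvlHom U F u)) = inclR U F (f₀ (lvlHom U F u, lvlHom U F v))
  rw [← h1, ← e1, map_mul]
  show _ = inclR U F ((G.LRep ↥(lvlGal U F) ↥F).ρ (lvlHom U F u) (b₀ (lvlHom U F v)) -
      b₀ (lvlHom U F u * lvlHom U F v) + b₀ (lvlHom U F u))
  rw [map_add, map_sub]

end Core

/-! ## HP-UP -/

set_option maxHeartbeats 1000000 in
/-- **HP-UP.** -/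
theorem globalUp : GlobalUpSpec := by
  intro U F _ _ _ f c hinf h0
  obtain ⟨b, hb⟩ := (H2π_eq_zero_iff f).1 h0
  rw [continuousH2π_eq_zero_iff, mem_levelCoboundaries₂_iff]
  refine ⟨fun u => inclR U F (b (lvlHom U F u)), ⟨F, inferInstance, fun g s hs => ?_⟩, ?_⟩
  · show inclR U F (b (lvlHom U F (g * s))) = inclR U F (b (lvlHom U F g))
    rw [map_mul, lvlHom_eq_one_of_mem U F hs, mul_one]
  · rw [d₁₂_inclR U F _ b hb]
    exact hinf.symm


/-! ## HP-GD -/

section Core2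

variable (U : Subgroup GQ) (F : IntermediateField ℚ Qb) [Normal ℚ F]

lemma exists_inclR_eq (hFU : F.fixingSubgroup ≤ U) (m : gModOn U)
    (hm : ∀ σ : ↥U, (σ : GQ) ∈ F.fixingSubgroup → (gModOn U).ρ σ m = m) :
    ∃ x : (G.LRep ↥(lvlGal U F) ↥F), inclR U F x = m :=
  exists_incl_eq U F hFU m hm

set_option maxHeartbeats 1000000 in
/-- Descent at a fixed normal level. -/
lemma descent_core (hFU : F.fixingSubgroup ≤ U) (c : ↥U × ↥U → gModOn U)
    (hc : c ∈ cocycles₂ (gModOn U))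
    (hconst : ∀ g g' s s' : ↥U, (s : GQ) ∈ F.fixingSubgroup → (s' : GQ) ∈ F.fixingSubgroup →
      c (g * s, g' * s') = c (g, g'))
    (b : ↥U → gModOn U) (hbconst : ∀ g s : ↥U, (s : GQ) ∈ F.fixingSubgroup → b (g * s) = b g)
    (n : ℕ) (hb' : (d₁₂ (gModOn U)).hom b = n • c) :
    ∃ (f₀ : ↥(lvlGal U F) × ↥(lvlGal U F) → (G.LRep ↥(lvlGal U F) ↥F))
      (b₀ : ↥(lvlGal U F) → (G.LRep ↥(lvlGal U F) ↥F)),
      f₀ ∈ cocycles₂ (G.LRep ↥(lvlGal U F) ↥F) ∧
      (∀ u u' : ↥U, inclR U F (f₀ (lvlHom U F u, lvlHom U F u')) = c (u, u')) ∧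
      (d₁₂ (G.LRep ↥(lvlGal U F) ↥F)).hom b₀ = n • f₀ := by
  -- values in `Fˣ`
  have hcval : ∀ p : ↥U × ↥U, ∃ x : (G.LRep ↥(lvlGal U F) ↥F), inclR U F x = c p := fun p =>
    exists_inclR_eq U F hFU _ (fun σ hσ => H181.rho_eq_of_level F hc hconst σ hσ p.1 p.2)
  have hbval : ∀ g : ↥U, ∃ x : (G.LRep ↥(lvlGal U F) ↥F), inclR U F x = b g := fun g =>
    exists_inclR_eq U F hFU _ (fun σ hσ => rho_eq_of_level₁ F hc hconst hbconst n hb' σ hσ g)
  choose cF hcF' using hcval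
  choose bF hbF' using hbval
  choose lift hlift using lvlHom_surjective U F
  have hliftmem : ∀ u : ↥U, ((u⁻¹ * lift (lvlHom U F u) : ↥U) : GQ) ∈ F.fixingSubgroup :=
    fun u => coe_mem_fixingSubgroup_of_lvlHom_eq U F (hlift (lvlHom U F u)).symm
  have key_c : ∀ u u' : ↥U, inclR U F (cF (lift (lvlHom U F u), lift (lvlHom U F u'))) =
      c (u, u') := by
    intro u u'
    rw [hcF']
    have := hconst u u' _ _ (hliftmem u) (hliftmem u')
    rw [mul_inv_cancel_left, mul_inv_cancel_left] at this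
    exact this
  have key_b : ∀ u : ↥U, inclR U F (bF (lift (lvlHom U F u))) = b u := by
    intro u
    rw [hbF']
    have := hbconst u _ (hliftmem u)
    rw [mul_inv_cancel_left] at this
    exact this
  exact ⟨fun p => cF (lift p.1, lift p.2), fun x => bF (lift x),
    mem_cocycles₂_of_inclR U F _ c hc key_c, key_c,
    d₁₂_eq_of_inclR U F _ _ c b n hb' key_c key_b⟩

end Core2

set_option maxHeartbeats 1000000 in
/-- **HP-GD.** -/
theorem globalDescent : GlobalDescentSpec := by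
  intro U hU c n hn F₁ hF₁
  have hn' : continuousH2π U.subtype (gModOn U) (n • c) = 0 := by
    rw [map_nsmul]
    exact hn
  rw [continuousH2π_eq_zero_iff, mem_levelCoboundaries₂_iff] at hn'
  obtain ⟨b, hbLC, hb⟩ := hn'
  have hb' : (d₁₂ (gModOn U)).hom b = n • (c : ↥U × ↥U → gModOn U) := hb
  -- a common normal level
  obtain ⟨Fc, hFc, hcF⟩ := c.2.2
  obtain ⟨Fb, hFb, hbF⟩ := hbLC
  obtain ⟨F₀, hF₀, hF₀U⟩ := hU
  haveI := hFc
  haveI := hFb
  haveI := hF₀
  haveI := hF₁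
  haveI : Algebra.IsAlgebraic ℚ Qb := AlgebraicClosure.isAlgebraic ℚ
  haveI : IsAlgClosure ℚ Qb := ⟨inferInstance, inferInstance⟩
  haveI : Normal ℚ Qb := IsAlgClosure.normal ℚ Qb
  have hle : Fc ⊔ Fb ⊔ F₀ ⊔ F₁ ≤ IntermediateField.normalClosure ℚ ↥(Fc ⊔ Fb ⊔ F₀ ⊔ F₁) Qb :=
    IntermediateField.le_normalClosure _
  have hFfin : FiniteDimensional ℚ
      (IntermediateField.normalClosure ℚ ↥(Fc ⊔ Fb ⊔ F₀ ⊔ F₁) Qb) :=
    normalClosure.is_finiteDimensional ℚ _ Qb
  have hFn : Normal ℚ (IntermediateField.normalClosure ℚ ↥(Fc ⊔ Fb ⊔ F₀ ⊔ F₁) Qb) :=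
    normalClosure.normal ℚ _ Qb
  generalize IntermediateField.normalClosure ℚ ↥(Fc ⊔ Fb ⊔ F₀ ⊔ F₁) Qb = F at hle hFfin hFn
  haveI := hFfin
  haveI := hFn
  have hFc' : Fc ≤ F := (le_sup_left.trans (le_sup_left.trans le_sup_left)).trans hle
  have hFb' : Fb ≤ F := (le_sup_right.trans (le_sup_left.trans le_sup_left)).trans hle
  have hF₀' : F₀ ≤ F := (le_sup_right.trans le_sup_left).trans hle
  have hF₁' : F₁ ≤ F := le_sup_right.trans hle
  have hFU : F.fixingSubgroup ≤ U :=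
    (IntermediateField.fixingSubgroup_antitone hF₀').trans hF₀U
  have hconst : ∀ g g' s s' : ↥U, (s : GQ) ∈ F.fixingSubgroup → (s' : GQ) ∈ F.fixingSubgroup →
      (c : ↥U × ↥U → gModOn U) (g * s, g' * s') = (c : ↥U × ↥U → gModOn U) (g, g') :=
    fun g g' s s' hs hs' => hcF g g' s s'
      (IntermediateField.fixingSubgroup_antitone hFc' hs)
      (IntermediateField.fixingSubgroup_antitone hFc' hs')
  have hbconst : ∀ g s : ↥U, (s : GQ) ∈ F.fixingSubgroup → b (g * s) = b g :=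
    fun g s hs => hbF g s (IntermediateField.fixingSubgroup_antitone hFb' hs)
  obtain ⟨f₀, b₀, hf₀, hinf, hd⟩ := descent_core U F hFU c c.2.1 hconst b hbconst n hb'
  refine ⟨F, hFfin, hFn, ⟨f₀, hf₀⟩, hF₁', hFU, ?_, ?_⟩
  · funext ⟨u, u'⟩
    exact (hinf u u').symm
  · rw [← map_nsmul, H2π_eq_zero_iff]
    exact ⟨b₀, hd⟩

end Fermat.Agent.S55.G.Rec.HP.H181
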