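import Fermat.Agent.S55.G.Rec.HP.Spec
import Fermat.Agent.S55.G.H953.H1J
import Fermat.Agent.S55.G.CycPowH184

/-!
# S55 / layer G / block REC / adapter HP : leaf HP-FINp (helper599)

`hasseFinP_of : G.PClassUpperSpec → G.ClassShortExactSpec → G.ShapiroJSpec → HasseFinPSpec p`
for an odd prime `p`: the Hasse principle at finite level for `p`-groups, in the intrinsic model
of `G/Defs.lean`, `G/DefsLocal.lean`.
-/

set_option autoImplicit false
set_option linter.unusedSectionVars false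
set_option linter.style.haveILetI false
set_option linter.unnecessarySimpa false

open scoped NumberField TensorProduct
open IsDedekindDomain CategoryTheory groupCohomology

noncomputable section

namespace Fermat.Agent.S55.G.Rec.HP.H599

open Fermat.Agent.S55 Fermat.Agent.S55.G

/-! ## Part A : a `p`-group fixes the `p`-th roots of unity -/

section FixedRoot

variable {Γ L : Type} [Group Γ] [Field L] [MulSemiringAction Γ L]

lemma smul_pow_eq_pow_pow {ζ : L} {g : Γ} {a : ℕ} (h : g • ζ = ζ ^ a) (n : ℕ) :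
    g ^ n • ζ = ζ ^ (a ^ n) := by
  induction n with
  | zero => simp
  | succ n ih =>
    rw [pow_succ', mul_smul, ih, smul_pow', h, ← pow_mul, ← pow_succ']

lemma pow_eq_pow_iff_of_primitiveRoot {p : ℕ} (hp : 0 < p) {ζ : L}
    (hζ : IsPrimitiveRoot ζ p) (m n : ℕ) : ζ ^ m = ζ ^ n ↔ m ≡ n [MOD p] := by
  obtain ⟨u, rfl⟩ := hζ.isUnit hp.ne'
  have hu : IsPrimitiveRoot u p := IsPrimitiveRoot.coe_units_iff.1 hζ
  rw [← Units.val_pow_eq_pow_val, ← Units.val_pow_eq_pow_val, Units.val_inj,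
    pow_eq_pow_iff_modEq, ← hu.eq_orderOf]

/-- A `p`-group of field automorphisms fixes every primitive `p`-th root of unity. -/
theorem smul_eq_of_isPGroup {p : ℕ} [hp : Fact p.Prime] (hΓ : IsPGroup p Γ) {ζ : L}
    (hζ : IsPrimitiveRoot ζ p) (g : Γ) : g • ζ = ζ := by
  have hpos : 0 < p := hp.out.pos
  have h1 : (g • ζ) ^ p = 1 := by rw [← smul_pow', hζ.pow_eq_one, smul_one]
  obtain ⟨a, -, ha⟩ := hζ.eq_pow_of_pow_eq_one h1
  have ha' : g • ζ = ζ ^ a := ha.symm
  obtain ⟨k, hk⟩ := hΓ g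
  have h2 : ζ ^ (a ^ (p ^ k)) = ζ ^ 1 := by
    rw [← smul_pow_eq_pow_pow ha', hk, one_smul, pow_one]
  -- hence `a ^ (p ^ k) ≡ 1 mod p`
  have h5 : a ^ (p ^ k) ≡ 1 [MOD p] := (pow_eq_pow_iff_of_primitiveRoot hpos hζ _ _).1 h2
  have h3 : ((a ^ (p ^ k) : ℕ) : ZMod p) = ((1 : ℕ) : ZMod p) :=
    (ZMod.natCast_eq_natCast_iff _ _ _).2 h5
  have h7 : ((a : ℕ) : ZMod p) = ((1 : ℕ) : ZMod p) := by
    have : ((a : ℕ) : ZMod p) ^ (p ^ k) = (a : ZMod p) := by
      have := ZMod.pow_card_pow (p := p) (n := k) (a : ZMod p)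
      simpa using this
    rw [← this]
    exact_mod_cast h3
  have h8 : a ≡ 1 [MOD p] := (ZMod.natCast_eq_natCast_iff _ _ _).1 h7
  rw [ha', (pow_eq_pow_iff_of_primitiveRoot hpos hζ _ _).2 h8, pow_one]

end FixedRoot

/-! ## Part B : a finite set `S` of primes adapted to the cocycle -/

section GoodSet

variable {L : Type} [Field L] [NumberField L]

/-- A nonzero natural number lying in a prime ideal has a prime factor lying in it. -/
lemma exists_prime_dvd_mem (w : HeightOneSpectrum (𝓞 L)) :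
    ∀ n : ℕ, n ≠ 0 → ((n : ℕ) : 𝓞 L) ∈ w.asIdeal →
      ∃ q : Nat.Primes, (q : ℕ) ∣ n ∧ (((q : ℕ) : ℕ) : 𝓞 L) ∈ w.asIdeal := by
  intro n
  induction n using Nat.strong_induction_on with
  | _ n ih =>
    intro hn hmem
    have hn1 : n ≠ 1 := by
      rintro rfl
      have : (1 : 𝓞 L) ∈ w.asIdeal := by simpa using hmem
      exact w.isPrime.ne_top ((Ideal.eq_top_iff_one _).2 this)
    have hq : n.minFac.Prime := Nat.minFac_prime hn1
    obtain ⟨m, hm⟩ := Nat.minFac_dvd n
    by_cases hqm : ((n.minFac : ℕ) : 𝓞 L) ∈ w.asIdeal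
    · exact ⟨⟨n.minFac, hq⟩, Nat.minFac_dvd n, hqm⟩
    · have hmem' : ((n.minFac : ℕ) : 𝓞 L) * ((m : ℕ) : 𝓞 L) ∈ w.asIdeal := by
        have : ((n : ℕ) : 𝓞 L) = ((n.minFac : ℕ) : 𝓞 L) * ((m : ℕ) : 𝓞 L) := by
          conv_lhs => rw [hm]
          push_cast
          rfl
        rwa [this] at hmem
      have hm_mem : ((m : ℕ) : 𝓞 L) ∈ w.asIdeal :=
        (w.isPrime.mem_or_mem hmem').resolve_left hqm
      have hm0 : m ≠ 0 := by
        rintro rfl
        exact hn (by rw [hm, mul_zero])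
      have hmlt : m < n := by
        have h2 : 2 ≤ n.minFac := hq.two_le
        have hmpos : 0 < m := Nat.pos_of_ne_zero hm0
        calc m = 1 * m := (one_mul m).symm
          _ < n.minFac * m := Nat.mul_lt_mul_of_pos_right (by omega) hmpos
          _ = n := hm.symm
      obtain ⟨q, hqd, hqw⟩ := ih m hmlt hm0 hm_mem
      exact ⟨q, hqd.trans (Dvd.intro_left n.minFac hm.symm), hqw⟩

/-- The finite set of the primes dividing `m`. -/
def primesDvd (m : ℕ) : Finset Nat.Primes :=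
  m.primeFactors.attach.image
    (fun q => (⟨q.1, Nat.prime_of_mem_primeFactors q.2⟩ : Nat.Primes))

lemma mem_primesDvd {m : ℕ} (hm : m ≠ 0) (q : Nat.Primes) :
    q ∈ primesDvd m ↔ (q : ℕ) ∣ m := by
  unfold primesDvd
  constructor
  · intro h
    obtain ⟨r, -, rfl⟩ := Finset.mem_image.1 h
    exact Nat.dvd_of_mem_primeFactors r.2
  · intro h
    refine Finset.mem_image.2 ⟨⟨(q : ℕ), Nat.mem_primeFactors.2 ⟨q.2, h, hm⟩⟩,
      Finset.mem_attach _ _, ?_⟩
    rfl

/-- The set of primes attached to a nonzero integer `Y` of `L` (and to `p`). -/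
def goodSet (p : ℕ) (Y : 𝓞 L) : Finset Nat.Primes :=
  primesDvd (p * Ideal.absNorm (Ideal.span ({Y} : Set (𝓞 L))))

lemma absNorm_span_ne_zero {Y : 𝓞 L} (hY : Y ≠ 0) :
    Ideal.absNorm (Ideal.span ({Y} : Set (𝓞 L))) ≠ 0 := by
  rw [Ne, Ideal.absNorm_eq_zero_iff, Ideal.span_singleton_eq_bot]
  exact hY

lemma mem_goodSet_self (p : ℕ) [hp : Fact p.Prime] {Y : 𝓞 L} (hY : Y ≠ 0) :
    (⟨p, hp.out⟩ : Nat.Primes) ∈ goodSet p Y := by
  exact (mem_primesDvd (Nat.mul_ne_zero hp.out.ne_zero (absNorm_span_ne_zero hY)) _).2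
    (Dvd.intro _ rfl)

lemma isAbove_goodSet (p : ℕ) [hp : Fact p.Prime] {Y : 𝓞 L} (hY : Y ≠ 0)
    (w : HeightOneSpectrum (𝓞 L)) (hw : Y ∈ w.asIdeal) : IsAbove (goodSet p Y) L w := by
  have hn := absNorm_span_ne_zero hY
  have hmem : ((Ideal.absNorm (Ideal.span ({Y} : Set (𝓞 L))) : ℕ) : 𝓞 L) ∈ w.asIdeal :=
    (Ideal.span_singleton_le_iff_mem _).2 hw (Ideal.absNorm_mem _)
  obtain ⟨q, hqd, hqw⟩ := exists_prime_dvd_mem w _ hn hmem
  exact ⟨q, (mem_primesDvd (Nat.mul_ne_zero hp.out.ne_zero hn) _).2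
    (hqd.trans (Dvd.intro_left _ rfl)), hqw⟩

/-- Every unit of `L` is a quotient of integers, and it is a unit at every prime not
containing their product. -/
lemma exists_support_element (u : Lˣ) :
    ∃ z : 𝓞 L, z ≠ 0 ∧ ∀ w : HeightOneSpectrum (𝓞 L),
      w.valuation L (u : L) ≠ 1 → z ∈ w.asIdeal := by
  obtain ⟨a, b, hb, hab⟩ := IsFractionRing.div_surjective (A := 𝓞 L) (u : L)
  have hb0 : b ≠ 0 := nonZeroDivisors.ne_zero hb
  have ha0 : a ≠ 0 := by
    rintro rfl
    rw [map_zero, zero_div] at hab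
    exact u.ne_zero hab.symm
  refine ⟨a * b, mul_ne_zero ha0 hb0, fun w hw => ?_⟩
  by_contra hmem
  have ha : a ∉ w.asIdeal := fun h => hmem (Ideal.mul_mem_right _ _ h)
  have hb' : b ∉ w.asIdeal := fun h => hmem (Ideal.mul_mem_left _ _ h)
  have hva : w.intValuation a = 1 := by
    refine le_antisymm (w.intValuation_le_one a) (not_lt.1 fun h => ha ?_)
    exact (w.intValuation_lt_one_iff_mem a).1 h
  have hvb : w.intValuation b = 1 := by
    refine le_antisymm (w.intValuation_le_one b) (not_lt.1 fun h => hb' ?_)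
    exact (w.intValuation_lt_one_iff_mem b).1 h
  apply hw
  rw [← hab, map_div₀, HeightOneSpectrum.valuation_of_algebraMap,
    HeightOneSpectrum.valuation_of_algebraMap, hva, hvb, div_one]

variable (Γ : Type) [Group Γ] [MulSemiringAction Γ L]

/-- A nontrivial automorphism moves some integer. -/
lemma exists_int_moved [FaithfulSMul Γ L] {g : Γ} (hg : g ≠ 1) :
    ∃ x : 𝓞 L, g • x - x ≠ 0 := by
  by_contra hcon
  push Not at hcon
  apply hg
  apply FaithfulSMul.eq_of_smul_eq_smul (α := L)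
  intro x
  rw [one_smul]
  obtain ⟨a, b, hb, rfl⟩ := IsFractionRing.div_surjective (A := 𝓞 L) x
  have ha' : g • (algebraMap (𝓞 L) L a) = algebraMap (𝓞 L) L a := by
    have := congrArg (algebraMap (𝓞 L) L) (sub_eq_zero.1 (hcon a))
    exact this
  have hb' : g • (algebraMap (𝓞 L) L b) = algebraMap (𝓞 L) L b := by
    have := congrArg (algebraMap (𝓞 L) L) (sub_eq_zero.1 (hcon b))
    exact this
  rw [smul_div₀', ha', hb']

/-- **The good set.**  For a finite group `Γ` acting faithfully on `L` and a `2`-cochain `c`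
with values in `Lˣ`, there is a finite set `S ∋ p` of primes such that `L/L^Γ` is unramified
outside `S` and all values of `c` are `S`-units. -/
theorem exists_goodSet [Finite Γ] [FaithfulSMul Γ L] (p : ℕ) [hp : Fact p.Prime]
    (c : Γ × Γ → Additive Lˣ) :
    ∃ S : Finset Nat.Primes, (⟨p, hp.out⟩ : Nat.Primes) ∈ S ∧ IsUnramOut S Γ L ∧
      ∀ g h : Γ, ordHom S L (c (g, h)) = 0 := by
  classical
  haveI : Fintype Γ := Fintype.ofFinite Γ
  -- the elements `y g`
  have hy : ∀ g : Γ, ∃ y : 𝓞 L, y ≠ 0 ∧ (g ≠ 1 → ∃ x : 𝓞 L, y = g • x - x) := by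
    intro g
    by_cases hg : g = 1
    · exact ⟨1, one_ne_zero, fun h => absurd hg h⟩
    · obtain ⟨x, hx⟩ := exists_int_moved (L := L) Γ hg
      exact ⟨g • x - x, hx, fun _ => ⟨x, rfl⟩⟩
  choose y hy0 hy1 using hy
  -- the elements `z (g, h)`
  have hz : ∀ gh : Γ × Γ, ∃ z : 𝓞 L, z ≠ 0 ∧ ∀ w : HeightOneSpectrum (𝓞 L),
      w.valuation L (((c gh).toMul : Lˣ) : L) ≠ 1 → z ∈ w.asIdeal :=
    fun gh => exists_support_element (c gh).toMul
  choose z hz0 hz1 using hz
  set Y : 𝓞 L := (∏ g : Γ, y g) * ∏ gh : Γ × Γ, z gh with hYdef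
  have hY : Y ≠ 0 :=
    mul_ne_zero (Finset.prod_ne_zero_iff.2 fun g _ => hy0 g)
      (Finset.prod_ne_zero_iff.2 fun gh _ => hz0 gh)
  have hYy : ∀ (g : Γ) (w : HeightOneSpectrum (𝓞 L)), y g ∈ w.asIdeal → Y ∈ w.asIdeal := by
    intro g w h
    refine Ideal.mul_mem_right _ _ ?_
    exact Ideal.mem_of_dvd _ (Finset.dvd_prod_of_mem y (Finset.mem_univ g)) h
  have hYz : ∀ (gh : Γ × Γ) (w : HeightOneSpectrum (𝓞 L)), z gh ∈ w.asIdeal →
      Y ∈ w.asIdeal := by
    intro gh w h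
    refine Ideal.mul_mem_left _ _ ?_
    exact Ideal.mem_of_dvd _ (Finset.dvd_prod_of_mem z (Finset.mem_univ gh)) h
  refine ⟨goodSet p Y, mem_goodSet_self p hY, ?_, ?_⟩
  · -- unramified outside `S`
    intro w hw g hg x
    by_cases hg1 : g = 1
    · rw [hg1, one_smul]
    · exfalso
      obtain ⟨x₀, hx₀⟩ := hy1 g hg1
      apply hw
      apply isAbove_goodSet p hY w
      apply hYy g w
      rw [hx₀]
      exact hg x₀
  · -- the values are `S`-units
    intro g h
    ext w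
    rw [ordHom_apply, Finsupp.zero_apply]
    by_contra hne
    apply w.2
    apply isAbove_goodSet p hY w.1
    apply hYz (g, h) w.1
    apply hz1
    intro hval
    exact hne ((ordAt_eq_zero_iff w.1 _).2 hval)

end GoodSet

/-! ## Part C : the cohomological argument -/

section Coh

variable (S : Finset Nat.Primes) (Γ L : Type) [Group Γ] [Field L] [NumberField L]
  [MulSemiringAction Γ L]

/-- The diagonal map `Lˣ ⟶ J_S(L)` in `Rep ℤ Γ`. -/
def lToJRepHom : LRep Γ L ⟶ JRep Γ S L :=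
  Rep.ofHom ⟨(unitsDiag S L).toIntLinearMap,
    fun g => LinearMap.ext fun x => unitsDiag_equivariant Γ S L g x⟩

/-- `H²(Γ, Lˣ) → H²(Γ, J_S × Div^S)` is injective as soon as `H¹(Γ, C_S) = 0`. -/
theorem diag_map_injective (hSES : (classShortComplex S Γ L).ShortExact)
    (h1 : Limits.IsZero (groupCohomology (CRep S Γ L) 1)) :
    Function.Injective (groupCohomology.map (A := LRep Γ L) (B := JDRep S Γ L)
      (MonoidHom.id Γ) (diagRepHom S Γ L) 2).hom := by
  have hex := groupCohomology.mapShortComplex₁_exact hSES (i := 1) (j := 2) rfl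
  have hf : (groupCohomology.mapShortComplex₁ hSES (i := 1) (j := 2) rfl).f = 0 :=
    Limits.IsZero.eq_of_src h1 _ _
  have hmono : Mono (groupCohomology.mapShortComplex₁ hSES (i := 1) (j := 2) rfl).g :=
    hex.mono_g hf
  exact (ModuleCat.mono_iff_injective _).1 hmono

/-- The class of a cocycle with `S`-unit values which is locally trivial at all places above
`S` is trivial, provided `H¹(Γ, C_S(L)) = 0`. -/
theorem H2π_eq_zero_of_loc [Finite Γ] (hSh : ShapiroJSpec)
    (hSES : (classShortComplex S Γ L).ShortExact)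
    (h1 : Limits.IsZero (groupCohomology (CRep S Γ L) 1))
    (c : cocycles₂ (LRep Γ L))
    (hord : ∀ g h : Γ, ordHom S L ((c : Γ × Γ → Additive Lˣ) (g, h)) = 0)
    (hloc : ∀ 𝔪 : SPlace S L, (locMapL S Γ 𝔪 2).hom ((H2π (LRep Γ L)).hom c) = 0) :
    (H2π (LRep Γ L)).hom c = 0 := by
  -- the cocycle `unitsDiag ∘ c` with values in `J_S`
  set cJ : cocycles₂ (JRep Γ S L) :=
    (mapCocycles₂ (A := LRep Γ L) (B := JRep Γ S L) (MonoidHom.id Γ) (lToJRepHom S Γ L)).hom c
    with hcJ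
  -- Step 1: its class is zero, by Shapiro
  have hJ0 : (H2π (JRep Γ S L)).hom cJ = 0 := by
    haveI : Finite (SPlace S L) := PL0H713.finite_sPlace S L
    obtain ⟨R, hR⟩ := H953.exists_orbitReps S Γ L
    have hinj := (hSh S Γ L R hR 2).1
    apply hinj
    funext r
    simp only [map_zero]
    have e1 : (locMapJ S Γ r.1 2).hom ((H2π (JRep Γ S L)).hom cJ) =
        (H2π (LocRep S Γ r.1)).hom
          ((mapCocycles₂ (A := JRep Γ S L) (B := LocRep S Γ r.1)
            (decomp S Γ r.1).subtype (jToLocRepHom S Γ r.1)).hom cJ) :=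
      H2π_comp_map_apply _ _ _
    have e2 : (locMapL S Γ r.1 2).hom ((H2π (LRep Γ L)).hom c) =
        (H2π (LocRep S Γ r.1)).hom
          ((mapCocycles₂ (A := LRep Γ L) (B := LocRep S Γ r.1)
            (decomp S Γ r.1).subtype (lToLocRepHom S Γ r.1)).hom c) :=
      H2π_comp_map_apply _ _ _
    have e3 : (mapCocycles₂ (A := JRep Γ S L) (B := LocRep S Γ r.1)
            (decomp S Γ r.1).subtype (jToLocRepHom S Γ r.1)).hom cJ =
        (mapCocycles₂ (A := LRep Γ L) (B := LocRep S Γ r.1)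
            (decomp S Γ r.1).subtype (lToLocRepHom S Γ r.1)).hom c := by
      apply Subtype.ext
      rfl
    rw [e1, e3, ← e2]
    exact hloc r.1
  -- Step 2: push to `J_S × Div^S` and use injectivity
  apply diag_map_injective S Γ L hSES h1
  rw [map_zero]
  have e1 : (groupCohomology.map (A := LRep Γ L) (B := JDRep S Γ L)
      (MonoidHom.id Γ) (diagRepHom S Γ L) 2).hom ((H2π (LRep Γ L)).hom c) =
      (H2π (JDRep S Γ L)).hom
        ((mapCocycles₂ (A := LRep Γ L) (B := JDRep S Γ L)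
          (MonoidHom.id Γ) (diagRepHom S Γ L)).hom c) :=
    H2π_comp_map_apply _ _ _
  have e2 : (groupCohomology.map (A := JRep Γ S L) (B := JDRep S Γ L)
      (MonoidHom.id Γ) (jInlRepHom S Γ L) 2).hom ((H2π (JRep Γ S L)).hom cJ) =
      (H2π (JDRep S Γ L)).hom
        ((mapCocycles₂ (A := JRep Γ S L) (B := JDRep S Γ L)
          (MonoidHom.id Γ) (jInlRepHom S Γ L)).hom cJ) :=
    H2π_comp_map_apply _ _ _
  have e3 : (mapCocycles₂ (A := LRep Γ L) (B := JDRep S Γ L)
          (MonoidHom.id Γ) (diagRepHom S Γ L)).hom c =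
      (mapCocycles₂ (A := JRep Γ S L) (B := JDRep S Γ L)
          (MonoidHom.id Γ) (jInlRepHom S Γ L)).hom cJ := by
    apply Subtype.ext
    funext gh
    obtain ⟨g, h⟩ := gh
    refine Prod.ext rfl ?_
    exact hord g h
  rw [e1, e3, ← e2, hJ0, map_zero]

end Coh

/-! ## The leaf -/

/-- **HP-FINp.**  The Hasse principle at finite level for `p`-groups (`p` odd), from the upper
bound `G-UP` (which gives `H¹(Γ, C_S(L)) = 0`), the exact sequence `G-SES` and Shapiro's lemma
for the `S`-idèles `G-LOC`. -/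
theorem hasseFinP_of (p : ℕ) [hp : Fact p.Prime] (hp2 : p ≠ 2) :
    G.PClassUpperSpec → G.ClassShortExactSpec → G.ShapiroJSpec → HasseFinPSpec p := by
  intro hUp hSES hSh Γ L _ _ _ _ _ _ hΓ hroot x
  obtain ⟨ζ, hζ⟩ := hroot
  induction x using H2_induction_on with
  | h c =>
    intro hloc
    obtain ⟨S, hpS, hunr, hord⟩ := exists_goodSet Γ p (c : Γ × Γ → Additive Lˣ)
    have hS : S.Nonempty := ⟨_, hpS⟩
    have hfix : HasFixedRootOfUnity p Γ L := ⟨ζ, hζ, smul_eq_of_isPGroup hΓ hζ⟩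
    have h1 : Limits.IsZero (groupCohomology (CRep S Γ L) 1) :=
      CycPowH184.isZero_H1_of_resSub_top _ (hUp p hp2 S Γ L hpS hΓ hunr hfix ⊤).1
    exact H2π_eq_zero_of_loc S Γ L hSh (hSES S Γ L hS) h1 c hord (fun 𝔪 => hloc S 𝔪)

end Fermat.Agent.S55.G.Rec.HP.H599
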