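import Fermat.Agent.S55.G.Rec.HP.Spec

/-!
# S55 / layer G / block REC / adapter HP : assembly

`hassePrinciple_of : HasseFinSpec p → GlobalDescentSpec → GlobalUpSpec → LocalGlueSpec →
    HassePrincipleSpec p`.
-/

set_option autoImplicit false

noncomputable section

namespace Fermat.Agent.S55.G.Rec.HP

open groupCohomology

local notation "Qb" => AlgebraicClosure ℚ
local notation "GQ" => (AlgebraicClosure ℚ ≃ₐ[ℚ] AlgebraicClosure ℚ)

/-- A finite extension of `ℚ` inside `ℚ̄` containing a primitive `p`-th root of unity. -/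
lemma exists_level_primitiveRoot (p : ℕ) (hp : p ≠ 0) :
    ∃ (F₁ : IntermediateField ℚ Qb) (ζ : Qb), FiniteDimensional ℚ F₁ ∧ ζ ∈ F₁ ∧
      IsPrimitiveRoot ζ p := by
  have : NeZero p := ⟨hp⟩
  have : NeZero ((p : ℕ) : Qb) := ⟨by exact_mod_cast hp⟩
  obtain ⟨ζ, hζ⟩ := HasEnoughRootsOfUnity.exists_primitiveRoot Qb p
  have hint : IsIntegral ℚ ζ := (hζ.isIntegral (Nat.pos_of_ne_zero hp)).tower_top
  refine ⟨IntermediateField.adjoin ℚ {ζ}, ζ, ?_, ?_, hζ⟩
  · exact IntermediateField.adjoin.finiteDimensional hint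
  · exact IntermediateField.mem_adjoin_simple_self ℚ ζ

/-- **HP, assembly.** -/
theorem hassePrinciple_of (p : ℕ) [hp : Fact p.Prime] (hFin : HasseFinSpec p)
    (hGD : GlobalDescentSpec) (hUp : GlobalUpSpec) (hLG : LocalGlueSpec) :
    HassePrincipleSpec p := by
  intro U hU x hx hloc
  obtain ⟨c, rfl⟩ := Submodule.mkQ_surjective _ x
  obtain ⟨k, hk⟩ := hx
  obtain ⟨F₁, ζ, hF₁, hζF₁, hζ⟩ := exists_level_primitiveRoot p hp.out.ne_zero
  obtain ⟨F, hFfin, hFnorm, f, hF₁F, hFU, hinf, htors⟩ := hGD U hU c (p ^ k) hk F₁ hF₁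
  have := hFfin
  have := hFnorm
  have hζ' : ∃ ζ' : ↥F, IsPrimitiveRoot ζ' p := by
    refine ⟨⟨ζ, hF₁F hζF₁⟩, ?_⟩
    have hinj : Function.Injective (algebraMap F Qb) := (algebraMap F Qb).injective
    exact IsPrimitiveRoot.of_map_of_injective (f := algebraMap F Qb) (by simpa using hζ) hinj
  have hfin : (H2π (G.LRep ↥(lvlGal U F) ↥F)).hom f = 0 := by
    refine hFin ↥(lvlGal U F) ↥F hζ' _ ⟨k, htors⟩ ?_
    exact hLG U F hFU f c hinf (fun q _ g => hloc q g)
  exact hUp U F hFU f c hinf hfin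

end Fermat.Agent.S55.G.Rec.HP
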