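import Fermat.Agent.S55.G.Rec.HP.Spec
import Fermat.Agent.S55.G.PL0H713
import Fermat.Agent.S55.Bridge.H175.LocalLevel
import Fermat.Agent.S55.Bridge.Krasner

/-!
# S55 / REC / HP : the intrinsic places `𝔪 ∈ SPlace S F` as embedded places `(q, g)`

For a finite normal `F/ℚ` inside `ℚ̄` and a place `𝔪` of `F` above `S` (a maximal ideal of
`F ⊗ ℚ_S`), we choose an embedding `φ : F_𝔪 → ℚ̄_q` over `ℚ_q` and `g ∈ G_ℚ` with
`φ ∘ toLoc = ι_q ∘ g⁻¹` on `F` (`PlaceEmb`).  Then, for an open `U ⊇ G_F`: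

* `ρ τ := (g · loc τ · g⁻¹)|_F` maps `V = locSub q g U` ONTO the decomposition group
  `decomp S (lvlGal U F) 𝔪`, compatibly with the actions on `F_𝔪` and `ℚ̄_q` (via `φ`);
* the elements of `ℚ̄_q` fixed by `ker ρ` lie in `φ(F_𝔪)`.
-/

set_option autoImplicit false
set_option linter.unusedSectionVars false
set_option linter.style.haveILetI false

noncomputable section

namespace Fermat.Agent.S55.G.Rec.HP

open groupCohomology Fermat.Agent.S55.Bridge.H175 Fermat.Agent.S55.G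

local notation "Qb" => AlgebraicClosure ℚ
local notation "GQ" => (AlgebraicClosure ℚ ≃ₐ[ℚ] AlgebraicClosure ℚ)

/-- An embedded model of the place `𝔪` of `F`: `φ : F_𝔪 ↪ ℚ̄_q` over `ℚ_q` and `g ∈ G_ℚ` such
that `φ ∘ toLoc = ι_q ∘ g⁻¹` on `F`. -/
structure PlaceEmb (S : Finset Nat.Primes) (F : IntermediateField ℚ Qb)
    (𝔪 : SPlace S ↥F) (q : ℕ) [Fact q.Prime] where
  /-- the conjugating element -/
  g : GQ
  /-- the embedding of the local field -/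
  φ : LocField S 𝔪 →+* PadicAlgCl q
  /-- the structure map -/
  ι₀ : ℚ_[q] →+* LocField S 𝔪
  φ_toLoc : ∀ x : F, φ (toLoc S 𝔪 x) = padicEmbedding q (g⁻¹ (x : Qb))
  φ_ι₀ : ∀ z : ℚ_[q], φ (ι₀ z) = algebraMap ℚ_[q] (PadicAlgCl q) z
  ofQS_mem : ∀ y : QS S, ∃ z : ℚ_[q], LocField.ofQS S 𝔪 y = ι₀ z
  ι₀_mem : ∀ z : ℚ_[q], ∃ y : QS S, ι₀ z = LocField.ofQS S 𝔪 y

section Exists

variable (S : Finset Nat.Primes) (F : IntermediateField ℚ Qb) [FiniteDimensional ℚ F]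
  (𝔪 : SPlace S ↥F)

lemma normal_Qb : Normal ℚ Qb := by
  have : Algebra.IsAlgebraic ℚ Qb := AlgebraicClosure.isAlgebraic ℚ
  have : IsAlgClosure ℚ Qb := ⟨inferInstance, inferInstance⟩
  exact IsAlgClosure.normal ℚ Qb

/-- Every ring homomorphism `F → ℚ̄_q` is `ι_q ∘ g⁻¹` for some `g ∈ G_ℚ`. -/
lemma exists_conj_of_ringHom (q : ℕ) [Fact q.Prime] (j : ↥F →+* PadicAlgCl q) :
    ∃ g : GQ, ∀ x : F, j x = padicEmbedding q (g⁻¹ (x : Qb)) := by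
  have hnorm : Normal ℚ Qb := normal_Qb
  let jA : ↥F →ₐ[ℚ] PadicAlgCl q := j.toRatAlgHom
  have hjA : ∀ x, jA x = j x := fun _ => rfl
  have hinj : Function.Injective (padicEmbedding q) := (padicEmbedding q).injective
  have hrange : ∀ x : F, jA x ∈ (padicEmbedding q).range := by
    intro x
    have hx : IsIntegral ℚ x := Algebra.IsIntegral.isIntegral x
    obtain ⟨b', hb'⟩ := Fermat.Agent.S55.Bridge.mem_range_padicEmbedding_of_root q
      (minpoly ℚ x) (minpoly.ne_zero hx) (jA x) (by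
        rw [Polynomial.aeval_algHom_apply, minpoly.aeval, map_zero])
    exact ⟨b', hb'⟩
  let e := AlgEquiv.ofInjective (padicEmbedding q) hinj
  let j' : ↥F →ₐ[ℚ] Qb := (e.symm : _ →ₐ[ℚ] Qb).comp (jA.codRestrict _ hrange)
  have hj' : ∀ x : F, padicEmbedding q (j' x) = j x := by
    intro x
    have h1 : (e (j' x) : PadicAlgCl q) = jA x := by
      change (e (e.symm (jA.codRestrict _ hrange x)) : PadicAlgCl q) = _
      rw [AlgEquiv.apply_symm_apply]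
      rfl
    exact h1
  let G₀ : GQ := AlgEquiv.ofBijective (j'.liftNormal Qb) (AlgHom.normal_bijective ℚ Qb Qb _)
  have hG₀ : ∀ x : F, G₀ (x : Qb) = j' x := by
    intro x
    exact j'.liftNormal_commutes Qb x
  refine ⟨G₀⁻¹, fun x => ?_⟩
  rw [inv_inv, hG₀, hj']

/-- Existence of an embedded model of every place. -/
theorem exists_placeEmb :
    ∃ (q : ℕ) (_ : Fact q.Prime), Nonempty (PlaceEmb S F 𝔪 q) := by
  have hq : Fact (Nat.Prime ((PL0H713.primeOf S ↥F 𝔪).1 : ℕ)) := ⟨(PL0H713.primeOf S ↥F 𝔪).1.2⟩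
  refine ⟨((PL0H713.primeOf S ↥F 𝔪).1 : ℕ), hq, ?_⟩
  let alg : Algebra ℚ_[((PL0H713.primeOf S ↥F 𝔪).1 : ℕ)] (LocField S 𝔪) :=
    PL0H713.algQq S ↥F 𝔪
  have hfin : Module.Finite ℚ_[((PL0H713.primeOf S ↥F 𝔪).1 : ℕ)] (LocField S 𝔪) :=
    PL0H713.finite_locField S ↥F 𝔪
  have halg : Algebra.IsAlgebraic ℚ_[((PL0H713.primeOf S ↥F 𝔪).1 : ℕ)] (LocField S 𝔪) :=
    Algebra.IsAlgebraic.of_finite _ _
  let φ₀ : LocField S 𝔪 →ₐ[ℚ_[((PL0H713.primeOf S ↥F 𝔪).1 : ℕ)]]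
      PadicAlgCl ((PL0H713.primeOf S ↥F 𝔪).1 : ℕ) := IsAlgClosed.lift
  obtain ⟨g, hg⟩ := exists_conj_of_ringHom F ((PL0H713.primeOf S ↥F 𝔪).1 : ℕ)
    ((φ₀ : LocField S 𝔪 →+* _).comp (toLoc S 𝔪))
  exact ⟨{
    g := g
    φ := φ₀
    ι₀ := PL0H713.ofQq S ↥F 𝔪
    φ_toLoc := fun x => hg x
    φ_ι₀ := fun z => φ₀.commutes z
    ofQS_mem := fun y => ⟨_, PL0H713.ofQS_eq S ↥F 𝔪 y⟩
    ι₀_mem := fun z => ⟨_, PL0H713.ofQq_apply S ↥F 𝔪 z⟩ }⟩

end Exists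

section Claims

variable {S : Finset Nat.Primes} {F : IntermediateField ℚ Qb} [FiniteDimensional ℚ F]
  [Normal ℚ F] {𝔪 : SPlace S ↥F} {q : ℕ} [Fact q.Prime] (P : PlaceEmb S F 𝔪 q)
  (U : Subgroup GQ)

/-- `ρ τ = (g · loc τ · g⁻¹)|_F`. -/
def PlaceEmb.rho : ↥(locSub q P.g U) →* ↥(lvlGal U F) := (lvlHom U F).comp (locHom q P.g U)

lemma PlaceEmb.rho_smul_coe (τ : ↥(locSub q P.g U)) (x : F) :
    ((P.rho U τ • x : F) : Qb) = P.g (localGaloisToGlobal q τ (P.g⁻¹ (x : Qb))) := by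
  change ((lvlHom U F (locHom q P.g U τ) • x : F) : Qb) = _
  rw [lvlHom_smul_coe, locHom_coe]
  rfl

lemma PlaceEmb.φ_injective : Function.Injective P.φ := P.φ.injective

lemma PlaceEmb.φ_toLoc_rho (τ : ↥(locSub q P.g U)) (x : F) :
    P.φ (toLoc S 𝔪 (P.rho U τ • x)) =
      (τ : PadicAlgCl q ≃ₐ[ℚ_[q]] PadicAlgCl q) (P.φ (toLoc S 𝔪 x)) := by
  rw [P.φ_toLoc, P.φ_toLoc, P.rho_smul_coe, ← padicEmbedding_localGaloisToGlobal]
  congr 1
  exact AlgEquiv.symm_apply_apply P.g _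

lemma PlaceEmb.φ_ofQS_fixed (τ : PadicAlgCl q ≃ₐ[ℚ_[q]] PadicAlgCl q) (y : QS S) :
    τ (P.φ (LocField.ofQS S 𝔪 y)) = P.φ (LocField.ofQS S 𝔪 y) := by
  obtain ⟨z, hz⟩ := P.ofQS_mem y
  rw [hz, P.φ_ι₀, τ.commutes]

lemma PlaceEmb.φ_mk_asAut (τ : ↥(locSub q P.g U)) (a : AS S ↥F) :
    P.φ (LocField.mk S 𝔪 (asAut S ↥(lvlGal U F) ↥F (P.rho U τ) a)) =
      (τ : PadicAlgCl q ≃ₐ[ℚ_[q]] PadicAlgCl q) (P.φ (LocField.mk S 𝔪 a)) := by
  induction a using TensorProduct.induction_on with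
  | zero => simp
  | tmul x y =>
    rw [asAut_tmul, PL0H713.mk_tmul, PL0H713.mk_tmul, map_mul, map_mul, map_mul,
      P.φ_toLoc_rho, P.φ_ofQS_fixed]
  | add a b ha hb => simp only [map_add, ha, hb]

lemma PlaceEmb.rho_mem_decomp (τ : ↥(locSub q P.g U)) :
    P.rho U τ ∈ decomp S ↥(lvlGal U F) 𝔪 := by
  rw [mem_decomp_iff]
  refine MaximalSpectrum.ext (Ideal.ext fun a => ?_)
  rw [mem_sPlaceSMul_iff, ← LocField.mk_eq_zero_iff, ← LocField.mk_eq_zero_iff,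
    ← map_eq_zero_iff P.φ P.φ_injective, ← map_eq_zero_iff P.φ P.φ_injective,
    ← map_inv, P.φ_mk_asAut]
  exact map_eq_zero_iff _ (AlgEquiv.injective _)

/-- `ρ` with values in the decomposition group. -/
def PlaceEmb.rhoD : ↥(locSub q P.g U) →* ↥(decomp S ↥(lvlGal U F) 𝔪) :=
  (P.rho U).codRestrict _ (P.rho_mem_decomp U)

@[simp] lemma PlaceEmb.rhoD_coe (τ : ↥(locSub q P.g U)) :
    ((P.rhoD U τ : ↥(decomp S ↥(lvlGal U F) 𝔪)) : ↥(lvlGal U F)) = P.rho U τ := rfl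

/-- `φ` intertwines the action of `ρ τ` on `F_𝔪` with the action of `τ` on `ℚ̄_q`. -/
lemma PlaceEmb.φ_locAut (τ : ↥(locSub q P.g U)) (y : LocField S 𝔪) :
    P.φ (locAut S ↥(lvlGal U F) 𝔪 (P.rhoD U τ) y) =
      (τ : PadicAlgCl q ≃ₐ[ℚ_[q]] PadicAlgCl q) (P.φ y) := by
  obtain ⟨a, rfl⟩ := LocField.mk_surjective S 𝔪 y
  rw [locAut_mk]
  exact P.φ_mk_asAut U τ a

variable {U} in
/-- Elements of `Gal(ℚ̄_q / F_q)` lie in `V` and in the kernel of `ρ`. -/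
lemma PlaceEmb.rhoD_of_fixing (hFU : F.fixingSubgroup ≤ U)
    (τ : PadicAlgCl q ≃ₐ[ℚ_[q]] PadicAlgCl q) (hτ : τ ∈ (localLevel q F).fixingSubgroup) :
    ∃ h : τ ∈ locSub q P.g U, P.rhoD U ⟨τ, h⟩ = 1 := by
  have h1 : localGaloisToGlobal q τ ∈ F.fixingSubgroup :=
    (mem_fixingSubgroup_localLevel_iff q F τ).1 hτ
  have h2 : ∀ x : F, P.g (localGaloisToGlobal q τ (P.g⁻¹ (x : Qb))) = (x : Qb) := by
    intro x
    have hx : P.g⁻¹ (x : Qb) ∈ F := apply_mem_of_normal F _ x.2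
    rw [(IntermediateField.mem_fixingSubgroup_iff F _).1 h1 _ hx]
    exact AlgEquiv.apply_symm_apply P.g _
  have h3 : P.g * localGaloisToGlobal q τ * P.g⁻¹ ∈ F.fixingSubgroup := by
    rw [IntermediateField.mem_fixingSubgroup_iff]
    intro x hx
    exact h2 ⟨x, hx⟩
  refine ⟨hFU h3, ?_⟩
  apply Subtype.ext
  apply Subtype.ext
  apply AlgEquiv.ext
  intro x
  apply Subtype.ext
  change ((P.rho U ⟨τ, hFU h3⟩ • x : F) : Qb) = _
  rw [P.rho_smul_coe]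
  exact h2 x

lemma isGalois_padicAlgCl473 (q : ℕ) [Fact q.Prime] : IsGalois ℚ_[q] (PadicAlgCl q) := by
  have := normal_padicAlgCl q
  exact isGalois_iff.mpr ⟨inferInstance, inferInstance⟩

/-- `F_q = ℚ_q · ι(F) ⊆ φ(F_𝔪)`. -/
lemma PlaceEmb.localLevel_le_range (a : PadicAlgCl q) (ha : a ∈ localLevel q F) :
    a ∈ Set.range P.φ := by
  let E : IntermediateField ℚ_[q] (PadicAlgCl q) :=
    P.φ.fieldRange.toIntermediateField (fun z => ⟨P.ι₀ z, P.φ_ι₀ z⟩)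
  have hE : ∀ b, b ∈ E ↔ b ∈ Set.range P.φ := fun b => Iff.rfl
  have hle : localLevel q F ≤ E := by
    unfold localLevel
    rw [IntermediateField.adjoin_le_iff]
    rintro _ ⟨x, hx, rfl⟩
    have hgx : P.g x ∈ F := apply_mem_of_normal F _ hx
    refine (hE _).2 ⟨toLoc S 𝔪 ⟨P.g x, hgx⟩, ?_⟩
    rw [P.φ_toLoc]
    congr 1
    exact AlgEquiv.symm_apply_apply P.g x
  exact (hE a).1 (hle ha)

variable {U} in
/-- The elements of `ℚ̄_q` fixed by `ker ρ` lie in `φ(F_𝔪)`. -/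
lemma PlaceEmb.mem_range_φ_of_fixed (hFU : F.fixingSubgroup ≤ U) (a : PadicAlgCl q)
    (h : ∀ τ : ↥(locSub q P.g U), P.rhoD U τ = 1 →
      (τ : PadicAlgCl q ≃ₐ[ℚ_[q]] PadicAlgCl q) a = a) :
    a ∈ Set.range P.φ := by
  have := isGalois_padicAlgCl473 q
  apply P.localLevel_le_range
  rw [← InfiniteGalois.fixedField_fixingSubgroup (localLevel q F)]
  rintro ⟨τ, hτ⟩
  obtain ⟨hV, h1⟩ := P.rhoD_of_fixing hFU τ hτ
  exact h ⟨τ, hV⟩ h1

variable {U} in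
/-- `ρ : V → decomp 𝔪` is surjective. -/
lemma PlaceEmb.rhoD_surjective (hFU : F.fixingSubgroup ≤ U) :
    Function.Surjective (P.rhoD U) := by
  intro σ
  obtain ⟨u, hu⟩ := lvlHom_surjective U F (σ : ↥(lvlGal U F))
  have hnorm := normal_padicAlgCl q
  letI a1 : Algebra ℚ_[q] (LocField S 𝔪) := P.ι₀.toAlgebra
  letI a2 : Algebra (LocField S 𝔪) (PadicAlgCl q) := P.φ.toAlgebra
  haveI : IsScalarTower ℚ_[q] (LocField S 𝔪) (PadicAlgCl q) :=
    IsScalarTower.of_algebraMap_eq (fun z => (P.φ_ι₀ z).symm)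
  let ψ : LocField S 𝔪 →ₐ[ℚ_[q]] PadicAlgCl q :=
    { toRingHom := P.φ.comp ((locAut S ↥(lvlGal U F) 𝔪 σ : LocField S 𝔪 ≃+* LocField S 𝔪) :
        LocField S 𝔪 →+* LocField S 𝔪)
      commutes' := by
        intro z
        change P.φ (locAut S ↥(lvlGal U F) 𝔪 σ (P.ι₀ z)) = _
        obtain ⟨y, hy⟩ := P.ι₀_mem z
        have h1 : locAut S ↥(lvlGal U F) 𝔪 σ (LocField.ofQS S 𝔪 y) = LocField.ofQS S 𝔪 y := by
          change locAut S ↥(lvlGal U F) 𝔪 σ (LocField.mk S 𝔪 (asIncl S ↥F y)) = _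
          rw [locAut_mk, asAut_asIncl]
          rfl
        rw [hy, h1, ← hy, P.φ_ι₀] }
  let τ : PadicAlgCl q ≃ₐ[ℚ_[q]] PadicAlgCl q :=
    AlgEquiv.ofBijective (ψ.liftNormal (PadicAlgCl q))
      (AlgHom.normal_bijective ℚ_[q] (PadicAlgCl q) (PadicAlgCl q) _)
  have hτ : ∀ y : LocField S 𝔪, τ (P.φ y) = P.φ (locAut S ↥(lvlGal U F) 𝔪 σ y) := by
    intro y
    exact ψ.liftNormal_commutes (PadicAlgCl q) y
  -- the action of `g · loc τ · g⁻¹` on `F`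
  have h2 : ∀ x : F, P.g (localGaloisToGlobal q τ (P.g⁻¹ (x : Qb))) =
      (((σ : ↥(lvlGal U F)) • x : F) : Qb) := by
    intro x
    have e1 : padicEmbedding q (localGaloisToGlobal q τ (P.g⁻¹ (x : Qb))) =
        padicEmbedding q (P.g⁻¹ ((((σ : ↥(lvlGal U F)) • x : F)) : Qb)) := by
      rw [padicEmbedding_localGaloisToGlobal, ← P.φ_toLoc, hτ, locAut_toLoc, P.φ_toLoc]
    have e2 := (padicEmbedding q).injective e1
    rw [e2]
    exact AlgEquiv.apply_symm_apply P.g _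
  have h3 : ∀ x : F, (P.g * localGaloisToGlobal q τ * P.g⁻¹) (x : Qb) = (u : GQ) (x : Qb) := by
    intro x
    rw [← lvlHom_smul_coe, hu]
    exact h2 x
  have hV : τ ∈ locSub q P.g U := by
    rw [mem_locSub]
    have hfix : P.g * localGaloisToGlobal q τ * P.g⁻¹ * (u : GQ)⁻¹ ∈ F.fixingSubgroup := by
      rw [IntermediateField.mem_fixingSubgroup_iff]
      intro x hx
      have hx' : (u : GQ)⁻¹ x ∈ F := apply_mem_of_normal F _ hx
      change (P.g * localGaloisToGlobal q τ * P.g⁻¹) ((u : GQ)⁻¹ x) = x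
      rw [h3 ⟨_, hx'⟩]
      exact AlgEquiv.apply_symm_apply (u : GQ) x
    have := U.mul_mem (hFU hfix) u.2
    rwa [inv_mul_cancel_right] at this
  refine ⟨⟨τ, hV⟩, ?_⟩
  apply Subtype.ext
  apply Subtype.ext
  apply AlgEquiv.ext
  intro x
  apply Subtype.ext
  change ((P.rho U ⟨τ, hV⟩ • x : F) : Qb) = _
  rw [P.rho_smul_coe]
  exact h2 x

end Claims

end Fermat.Agent.S55.G.Rec.HP
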