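import Fermat.Agent.S55.G.Rec.Spec
import Fermat.Agent.S55.G.Spec

/-!
# S55 / layer G / block REC / adapter HP : FROZEN INTERFACE

Sub-architect: helper473 (subtask 378).  Blueprint: `origin/helper473:coord/S55-REC-HP.md`.

Goal (file `HP/Glue.lean`):

  `hassePrinciple_of : HasseFinSpec p → GlobalDescentSpec → GlobalUpSpec → LocalGlueSpec →
      HassePrincipleSpec p`

and the three leaves

* **HP-FIN** `HasseFinSpec p` : the Hasse principle at FINITE level, in helper421's intrinsic
  model (`G/Defs.lean`, `G/DefsLocal.lean`): for a finite group `G` acting faithfully on a number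
  field `L ∋ ζ_p`, a class `x ∈ H²(G, Lˣ)` of `p`-power order whose localisations
  `locMapL S G 𝔪 2 x ∈ H²(D_𝔪, L_𝔪ˣ)` vanish for all finite `S` and all places `𝔪` above `S`, is `0`.
  (From `G.PClassUpperSpec`, `G.ClassShortExactSpec`, `G.ShapiroJSpec`, `T.ResIndexSpec`.)
* **HP-GD** `GlobalDescentSpec`, `GlobalUpSpec` : dictionary between level cocycles on an open
  `U ≤ G_ℚ` with values in `ℚ̄ˣ` and cocycles of the finite group `lvlGal U F ≤ Gal(F/ℚ)`
  (the image of `U`; it is `Gal(F / F ∩ ℚ̄^U)`) with values in `Fˣ`, `F/ℚ` finite normal.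
* **HP-LG** `LocalGlueSpec` : if all absolute localisations `locBr q g U x` vanish, then all
  intrinsic localisations of the finite-level class vanish.

Only definitions and `def XxxSpec : Prop`; no `sorry`.
-/

set_option autoImplicit false

noncomputable section

namespace Fermat.Agent.S55.G.Rec.HP

open groupCohomology

local notation "Qb" => AlgebraicClosure ℚ
local notation "GQ" => (AlgebraicClosure ℚ ≃ₐ[ℚ] AlgebraicClosure ℚ)

/-! ## Finite levels of an open subgroup `U ≤ G_ℚ` -/

/-- A finite extension of `ℚ` inside `ℚ̄` is a number field. -/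
instance instNumberFieldLevel (F : IntermediateField ℚ Qb) [FiniteDimensional ℚ F] :
    NumberField F where
  to_charZero := inferInstance
  to_finiteDimensional := inferInstance

variable (U : Subgroup GQ) (F : IntermediateField ℚ Qb) [Normal ℚ F]

/-- Restriction `U → Gal(F/ℚ)`. -/
def lvlRes : ↥U →* (F ≃ₐ[ℚ] F) := (AlgEquiv.restrictNormalHom F).comp U.subtype

lemma lvlRes_apply_coe (u : ↥U) (x : F) :
    ((lvlRes U F u x : F) : Qb) = (u : GQ) (x : Qb) := by
  change algebraMap F Qb (AlgEquiv.restrictNormal (u : GQ) F x) = _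
  rw [AlgEquiv.restrictNormal_commutes]
  rfl

/-- The image of `U` in `Gal(F/ℚ)`: the finite group `Gal(F / F ∩ K)`, `K = ℚ̄^U`. -/
def lvlGal : Subgroup (F ≃ₐ[ℚ] F) := (lvlRes U F).range

/-- The surjection `U → lvlGal U F`. -/
def lvlHom : ↥U →* ↥(lvlGal U F) := (lvlRes U F).rangeRestrict

lemma lvlHom_surjective : Function.Surjective (lvlHom U F) :=
  (lvlRes U F).rangeRestrict_surjective

@[simp] lemma lvlHom_coe (u : ↥U) : ((lvlHom U F u : ↥(lvlGal U F)) : F ≃ₐ[ℚ] F) = lvlRes U F u :=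
  rfl

lemma lvlHom_smul_coe (u : ↥U) (x : F) :
    ((lvlHom U F u • x : F) : Qb) = (u : GQ) (x : Qb) :=
  lvlRes_apply_coe U F u x

/-- The inclusion `Fˣ → ℚ̄ˣ`. -/
def unitsInclG : (↥F)ˣ →* Qbˣ := Units.map (algebraMap F Qb : F →* Qb)

omit [Normal ℚ F] in
@[simp] lemma unitsInclG_coe (x : (↥F)ˣ) : ((unitsInclG F x : Qbˣ) : Qb) = ((x : F) : Qb) := rfl

/-- Inflation of finite-level 1-cochains to `U`. -/
def gInflCochain₁ (b : ↥(lvlGal U F) → Additive (↥F)ˣ) : ↥U → gModOn U :=
  fun u => Additive.ofMul (unitsInclG F (Additive.toMul (b (lvlHom U F u))))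

/-- Inflation of finite-level 2-cochains to `U`. -/
def gInflCochain₂ (f : ↥(lvlGal U F) × ↥(lvlGal U F) → Additive (↥F)ˣ) :
    ↥U × ↥U → gModOn U :=
  fun p => Additive.ofMul
    (unitsInclG F (Additive.toMul (f (lvlHom U F p.1, lvlHom U F p.2))))

/-- The level cocycle `c` on `U` is the inflation of the finite-level cocycle `f` on
`lvlGal U F` with values in `Fˣ`. -/
def IsGInflation (f : cocycles₂ (G.LRep ↥(lvlGal U F) ↥F))
    (c : ↥(levelCocycles₂ U.subtype (gModOn U))) : Prop :=
  (c : ↥U × ↥U → gModOn U) =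
    gInflCochain₂ U F (f : ↥(lvlGal U F) × ↥(lvlGal U F) → Additive (↥F)ˣ)

/-! ## The leaves -/

/-- **HP-FIN** the Hasse principle at finite level (intrinsic model of `G/Defs.lean`):
`Γ` finite acting faithfully on the number field `L ∋ ζ_p`; a class of `p`-power order in
`H²(G, Lˣ)` which is locally trivial at all places above all finite sets `S` is trivial. -/
def HasseFinSpec (p : ℕ) : Prop :=
  ∀ (Γ L : Type) [Group Γ] [Finite Γ] [Field L] [NumberField L] [MulSemiringAction Γ L]
    [FaithfulSMul Γ L],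
    (∃ ζ : L, IsPrimitiveRoot ζ p) →
    ∀ x : groupCohomology (G.LRep Γ L) 2, (∃ k : ℕ, p ^ k • x = 0) →
      (∀ (S : Finset Nat.Primes) (𝔪 : G.SPlace S L), (G.locMapL S Γ 𝔪 2).hom x = 0) → x = 0

/-- **HP-FINp** the same for `p`-groups (the case proved directly from layer G). -/
def HasseFinPSpec (p : ℕ) : Prop :=
  ∀ (Γ L : Type) [Group Γ] [Finite Γ] [Field L] [NumberField L] [MulSemiringAction Γ L]
    [FaithfulSMul Γ L],
    IsPGroup p Γ → (∃ ζ : L, IsPrimitiveRoot ζ p) →
    ∀ x : groupCohomology (G.LRep Γ L) 2,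
      (∀ (S : Finset Nat.Primes) (𝔪 : G.SPlace S L), (G.locMapL S Γ 𝔪 2).hom x = 0) → x = 0

/-- **HP-GD** descent: every level cocycle `c` on an open `U` is the inflation of a cocycle `f`
of a finite normal level `F ⊇ F₁` (`F₁` any given finite extension) with `G_F ≤ U`; if
`n • [c] = 0` in `Br(K)` then `F`, `f` can be chosen with `n • [f] = 0` in `H²(lvlGal U F, Fˣ)`.
(`n = 0` gives plain descent.) -/
def GlobalDescentSpec : Prop :=
  ∀ (U : Subgroup GQ), IsOpenQ U →
    ∀ (c : ↥(levelCocycles₂ U.subtype (gModOn U))) (n : ℕ),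
      n • continuousH2π U.subtype (gModOn U) c = 0 →
    ∀ (F₁ : IntermediateField ℚ Qb), FiniteDimensional ℚ F₁ →
      ∃ (F : IntermediateField ℚ Qb) (_ : FiniteDimensional ℚ F) (_ : Normal ℚ F)
        (f : cocycles₂ (G.LRep ↥(lvlGal U F) ↥F)),
        F₁ ≤ F ∧ F.fixingSubgroup ≤ U ∧ IsGInflation U F f c ∧
          n • (H2π (G.LRep ↥(lvlGal U F) ↥F)).hom f = 0

/-- **HP-UP** a finite-level coboundary inflates to a level coboundary. -/
def GlobalUpSpec : Prop :=
  ∀ (U : Subgroup GQ) (F : IntermediateField ℚ Qb) [FiniteDimensional ℚ F] [Normal ℚ F],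
    F.fixingSubgroup ≤ U →
    ∀ (f : cocycles₂ (G.LRep ↥(lvlGal U F) ↥F))
      (c : ↥(levelCocycles₂ U.subtype (gModOn U))),
      IsGInflation U F f c → (H2π (G.LRep ↥(lvlGal U F) ↥F)).hom f = 0 →
        continuousH2π U.subtype (gModOn U) c = 0

/-- **HP-LG** local glue: if the absolute localisations of `[c] ∈ Br(K)` vanish at all places
`(q, g)`, then the intrinsic localisations of the finite-level class `[f]` vanish at all places
`𝔪` of `F` above all finite sets `S`. -/
def LocalGlueSpec : Prop :=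
  ∀ (U : Subgroup GQ) (F : IntermediateField ℚ Qb) [FiniteDimensional ℚ F] [Normal ℚ F],
    F.fixingSubgroup ≤ U →
    ∀ (f : cocycles₂ (G.LRep ↥(lvlGal U F) ↥F))
      (c : ↥(levelCocycles₂ U.subtype (gModOn U))),
      IsGInflation U F f c →
      (∀ (q : ℕ) [Fact q.Prime] (g : GQ),
        locBr q g U (continuousH2π U.subtype (gModOn U) c) = 0) →
      ∀ (S : Finset Nat.Primes) (𝔪 : G.SPlace S ↥F),
        (G.locMapL S ↥(lvlGal U F) 𝔪 2).hom ((H2π (G.LRep ↥(lvlGal U F) ↥F)).hom f) = 0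

end Fermat.Agent.S55.G.Rec.HP
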